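/-
CAR-18 (assembly, helper71): **horizontal divisibility** of a function by `m`.

`HorDiv K m f` : at every discrete valuation ring `V` of `F` containing the constants `K`
(a "horizontal prime divisor" of the arithmetic surface), the order of `f` is divisible by `m`.
This is the `K0`-level form of "the divisor of `f` over `ℚ̄` is divisible by `m`" (UNR-H, CAR-16),
and it is the hypothesis (hor) of the local factorisation `f = u * h ^ m` (CAR-13 (b)).
It is stable under products, inverses, powers, and holds for constants and `m`-th powers.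
-/
import Mathlib
import Fermat.Agent.CAR.Formal.DiscVal

set_option autoImplicit false

namespace Fermat.Agent.CAR.Core

open Fermat.Agent.CAR.Formal

variable (K : Type*) {F : Type*} [Field K] [Field F] [Algebra K F]

/-- `f` has order divisible by `m` at every discrete valuation ring of `F` containing `K`. -/
def HorDiv (m : ℕ) (f : F) : Prop :=
  ∀ V : ValuationSubring F, (∀ a : K, algebraMap K F a ∈ V) →
    ∀ (t : F) (h : IsUnif V t), (m : ℤ) ∣ h.ord f

variable {K}

/-- The unfolded form: if `f = t ^ n * u` with `u` a unit of `V`, then `m ∣ n`. -/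
theorem HorDiv.dvd_of_eq {m : ℕ} {f : F} (hf : HorDiv K m f) (V : ValuationSubring F)
    (hV : ∀ a : K, algebraMap K F a ∈ V) {t : F} (h : IsUnif V t) {n : ℤ} {u : F}
    (hu : u ∈ V) (hu' : u⁻¹ ∈ V) (hu0 : u ≠ 0) (hfn : f = t ^ n * u) : (m : ℤ) ∣ n := by
  have h1 := hf V hV t h
  rwa [h.ord_eq hu hu' hu0 hfn] at h1

/-- `HorDiv` from its unfolded form. -/
theorem horDiv_of_forall_eq {m : ℕ} {f : F}
    (H : ∀ V : ValuationSubring F, (∀ a : K, algebraMap K F a ∈ V) → ∀ t : F, IsUnif V t →
      ∀ (n : ℤ) (u : F), u ∈ V → u⁻¹ ∈ V → f = t ^ n * u → (m : ℤ) ∣ n) : HorDiv K m f := by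
  intro V hV t h
  by_cases hf0 : f = 0
  · rw [hf0, h.ord_zero]
    exact dvd_zero _
  · obtain ⟨u, hu, hu', -, he⟩ := h.exists_unit_eq hf0
    exact H V hV t h _ u hu hu' he

theorem horDiv_zero (m : ℕ) : HorDiv K m (0 : F) := by
  intro V _ t h
  rw [h.ord_zero]
  exact dvd_zero _

theorem horDiv_one (m : ℕ) : HorDiv K m (1 : F) := by
  intro V _ t h
  rw [h.ord_one]
  exact dvd_zero _

theorem HorDiv.mul {m : ℕ} {f g : F} (hf : HorDiv K m f) (hg : HorDiv K m g) :
    HorDiv K m (f * g) := by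
  by_cases hf0 : f = 0
  · rw [hf0, zero_mul]
    exact horDiv_zero m
  by_cases hg0 : g = 0
  · rw [hg0, mul_zero]
    exact horDiv_zero m
  intro V hV t h
  rw [h.ord_mul hf0 hg0]
  exact dvd_add (hf V hV t h) (hg V hV t h)

theorem HorDiv.inv {m : ℕ} {f : F} (hf : HorDiv K m f) : HorDiv K m f⁻¹ := by
  intro V hV t h
  rw [h.ord_inv]
  exact (dvd_neg).mpr (hf V hV t h)

theorem HorDiv.div {m : ℕ} {f g : F} (hf : HorDiv K m f) (hg : HorDiv K m g) :
    HorDiv K m (f / g) := by
  rw [div_eq_mul_inv]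
  exact hf.mul hg.inv

theorem HorDiv.pow {m : ℕ} {f : F} (hf : HorDiv K m f) (k : ℕ) : HorDiv K m (f ^ k) := by
  intro V hV t h
  rw [h.ord_pow]
  exact Dvd.dvd.mul_left (hf V hV t h) _

theorem HorDiv.zpow {m : ℕ} {f : F} (hf : HorDiv K m f) (k : ℤ) : HorDiv K m (f ^ k) := by
  intro V hV t h
  rw [h.ord_zpow]
  exact Dvd.dvd.mul_left (hf V hV t h) _

/-- An `m`-th power is horizontally divisible by `m`. -/
theorem horDiv_pow_self (m : ℕ) (g : F) : HorDiv K m (g ^ m) := by
  intro V _ t h
  rw [h.ord_pow]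
  exact Dvd.intro _ rfl

/-- Constants are horizontally divisible by every `m`. -/
theorem horDiv_algebraMap (m : ℕ) (a : K) : HorDiv K m (algebraMap K F a) := by
  intro V hV t h
  by_cases ha : a = 0
  · rw [ha, map_zero, h.ord_zero]
    exact dvd_zero _
  · have h1 : (algebraMap K F a)⁻¹ ∈ V := by
      rw [← map_inv₀]
      exact hV _
    rw [h.ord_unit (hV a) h1 ((map_ne_zero _).mpr ha)]
    exact dvd_zero _

/-- `HorDiv` only depends on `f` up to constants and `m`-th powers. -/
theorem HorDiv.of_eq_mul_pow {m : ℕ} {f f' g : F} {a : K} {k : ℕ} (hf : HorDiv K m f)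
    (h : f' = algebraMap K F a * g ^ m * f ^ k) : HorDiv K m f' := by
  rw [h]
  exact ((horDiv_algebraMap m a).mul (horDiv_pow_self m g)).mul (hf.pow k)

end Fermat.Agent.CAR.Core
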