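/-
CAR-18 (assembly, helper71): **THE ABSTRACT CHAIN** of CAR-CORE.

Setting: `W` the discrete valuation ring of `K0 = ℚ̄^I` (uniformiser `q₀`, residue map
`res : W → k`, `k` algebraically closed), `FN = K0·F_N`, `F = K0·F_{Nq}` the two function
fields, `α β : FN → F` the two degeneracy maps, `PA PC` the two vertical valuation rings of `FN`,
`O 0, O 1, O 2` (`= inf, mid, zero`) the three vertical valuation rings of `F`
(`D : NF.Data …`, helper47's norm calculus), `R`, `R'` the two chart rings.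

`chain` : a function `f ∈ F` which is horizontally `m`-divisible (`HorDiv K0 m f`, CAR-16) and
whose two norms are constants times `m`-th powers satisfies
`f ^ ((q-1)(q+1))² = b * h ^ m` with `b ∈ K0ˣ`:

1. normal form (CAR-10): `f ^ ((q-1)(q+1)) = ϖ ^ j * G ^ m * f₃`, `f₃ ≡ 1` on the three components;
2. the norms of `f₃` are `(unit of W) * g ^ m` with `g` congruent to CONSTANTS on `PA` and `PC`
   (`exists_const_of_pow`: an element whose `m`-th power is constant modulo the maximal ideal is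
   constant, `k` being algebraically closed);
3. the killing function `H` (three-point approximation) and `f₄ = f₃ ^ ((q-1)(q+1)) * H⁻¹ ^ m`;
4. at every closed point (`PointPkg`, = CAR-13 + CAR-14 + CAR-17): `f₃ = u * h ^ m`; at a triple
   point the node relations + `Glue.ratio_pow_eq` show that the three values of
   `(h ^ ((q-1)(q+1)) * H⁻¹)⁻¹` coincide, hence the local pair of Newton–Čech for `f₄`;
5. the global step (`hglob` = CAR-12 + CAR-15): `f₄ = c * τ ^ m`.
-/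
import Mathlib
import Fermat.Agent.CAR.Formal.NormalForm
import Fermat.Agent.CAR.Glue.LocalCore
import Fermat.Agent.CAR.Core.Hor

set_option autoImplicit false

namespace Fermat.Agent.CAR.Core

open Fermat.Agent.CAR.Formal Fermat.Agent.CAR.Formal.NF

/-! ### Small facts on valuation subrings -/

section Val

variable {F : Type*} [Field F]

theorem one_notMem_nonunits (V : ValuationSubring F) : (1 : F) ∉ V.nonunits := by
  rw [ValuationSubring.mem_nonunits_iff, map_one]
  exact lt_irrefl _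

theorem mem_of_nonunits (V : ValuationSubring F) {x : F} (hx : x ∈ V.nonunits) : x ∈ V :=
  (V.valuation_le_one_iff x).1 (le_of_lt ((ValuationSubring.mem_nonunits_iff V).1 hx))

theorem mem_of_sub_nonunits (V : ValuationSubring F) {x y : F} (h : x - y ∈ V.nonunits)
    (hy : y ∈ V) : x ∈ V := by
  have e : x = (x - y) + y := by ring
  rw [e]
  exact V.add_mem _ _ (mem_of_nonunits V h) hy

theorem mem_of_pu (V : ValuationSubring F) {x : F} (h : x - 1 ∈ V.nonunits) : x ∈ V :=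
  mem_of_sub_nonunits V h V.one_mem

theorem notMem_nonunits_of_mul_eq_one (V : ValuationSubring F) {x y : F} (hy : y ∈ V)
    (hxy : x * y = 1) : x ∉ V.nonunits := by
  intro hx
  have h1 : y * x ∈ V.nonunits := mul_mem_nonunits V hy hx
  rw [mul_comm, hxy] at h1
  exact one_notMem_nonunits V h1

theorem mem_of_pow_mem_val (V : ValuationSubring F) {x : F} {m : ℕ} (hm : m ≠ 0)
    (h : x ^ m ∈ V) : x ∈ V := by
  by_contra hx
  have hx0 : x ≠ 0 := fun h0 => hx (h0 ▸ V.zero_mem)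
  have h1 : x⁻¹ ∈ V.nonunits := by
    rw [ValuationSubring.mem_nonunits_iff_or]
    right
    rw [inv_inv]
    exact hx
  have h2 : x⁻¹ ^ m ∈ V.nonunits := by
    obtain ⟨n, rfl⟩ : ∃ n, m = n + 1 := ⟨m - 1, by omega⟩
    rw [pow_succ]
    exact mul_mem_nonunits V (pow_mem (mem_of_nonunits V h1) n) h1
  have h3 : x⁻¹ ^ m * x ^ m = 1 := by
    rw [← mul_pow, inv_mul_cancel₀ hx0, one_pow]
  exact notMem_nonunits_of_mul_eq_one V h h3 h2

/-- a statement about the three indices -/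
theorem forall_fin3 {P : Fin 3 → Prop} (h0 : P 0) (h1 : P 1) (h2 : P 2) : ∀ i, P i := by
  intro i
  fin_cases i
  · exact h0
  · exact h1
  · exact h2

end Val

/-! ### An element with constant `m`-th power is constant -/

section ConstRoot

variable {W k K : Type*} [CommRing W] [Field k] [Field K] [Algebra W K]

/-- `V` a valuation ring of `K` containing the image of `W`, the kernel of `res : W → k` mapping
into the maximal ideal of `V`, `k` algebraically closed.  If `y ∈ V` and `y ^ m` is congruent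
to a constant from `W` modulo the maximal ideal, then so is `y`. -/
theorem exists_const_of_pow [IsAlgClosed k] (res : W →+* k) (hres : Function.Surjective res)
    (V : ValuationSubring K) (hWV : ∀ w : W, algebraMap W K w ∈ V)
    (hker : ∀ w : W, res w = 0 → algebraMap W K w ∈ V.nonunits)
    {m : ℕ} (hm : m ≠ 0) {y : K} (hy : y ∈ V) (w₀ : W)
    (h : y ^ m - algebraMap W K w₀ ∈ V.nonunits) :
    ∃ w : W, y - algebraMap W K w ∈ V.nonunits := by
  classical
  let ι : W →+* V :=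
    { toFun := fun w => ⟨algebraMap W K w, hWV w⟩
      map_one' := Subtype.ext (map_one _)
      map_mul' := fun a b => Subtype.ext (map_mul _ a b)
      map_zero' := Subtype.ext (map_zero _)
      map_add' := fun a b => Subtype.ext (map_add _ a b) }
  let ψ : W →+* IsLocalRing.ResidueField V := (IsLocalRing.residue V).comp ι
  have hψ0 : ∀ w : W, res w = 0 → ψ w = 0 := by
    intro w hw
    show IsLocalRing.residue V (ι w) = 0
    rw [IsLocalRing.residue_eq_zero_iff]
    obtain ⟨h1, h2⟩ := ValuationSubring.mem_nonunits_iff_exists_mem_maximalIdeal.mp (hker w hw)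
    exact h2
  let φ : k →+* IsLocalRing.ResidueField V :=
    RingHom.liftOfSurjective res hres
      ⟨ψ, fun w hw => RingHom.mem_ker.mpr (hψ0 w (RingHom.mem_ker.mp hw))⟩
  have hφ : ∀ w : W, φ (res w) = ψ w := fun w =>
    RingHom.liftOfRightInverse_comp_apply res _ _ _ w
  let yb : IsLocalRing.ResidueField V := IsLocalRing.residue V ⟨y, hy⟩
  have hyb : yb ^ m = φ (res w₀) := by
    rw [hφ]
    show (IsLocalRing.residue V ⟨y, hy⟩) ^ m = IsLocalRing.residue V (ι w₀)
    rw [← map_pow, ← sub_eq_zero, ← map_sub, IsLocalRing.residue_eq_zero_iff]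
    obtain ⟨h1, h2⟩ := ValuationSubring.mem_nonunits_iff_exists_mem_maximalIdeal.mp h
    have e : (⟨y, hy⟩ : V) ^ m - ι w₀ = ⟨y ^ m - algebraMap W K w₀, h1⟩ := Subtype.ext rfl
    rw [e]
    exact h2
  let _ : Algebra k (IsLocalRing.ResidueField V) := φ.toAlgebra
  have hint : IsIntegral k yb := by
    refine IsIntegral.of_pow (Nat.pos_of_ne_zero hm) ?_
    rw [hyb]
    exact isIntegral_algebraMap
  obtain ⟨c, hc⟩ := (IsAlgClosed.algebraMap_bijective_of_isIntegral (k := k)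
    (K := integralClosure k (IsLocalRing.ResidueField V))).2 ⟨yb, hint⟩
  have hc' : φ c = yb := congrArg Subtype.val hc
  obtain ⟨w, rfl⟩ := hres c
  refine ⟨w, ?_⟩
  rw [ValuationSubring.mem_nonunits_iff_exists_mem_maximalIdeal]
  refine ⟨V.sub_mem hy (hWV w), ?_⟩
  rw [← IsLocalRing.residue_eq_zero_iff]
  have e : (⟨y - algebraMap W K w, V.sub_mem hy (hWV w)⟩ : V) = ⟨y, hy⟩ - ι w := Subtype.ext rfl
  rw [e, map_sub, sub_eq_zero]
  rw [hφ] at hc'
  exact hc'.symm

end ConstRoot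

/-! ### The point package -/

section Chain

variable {W k K0 FN F : Type*} [CommRing W] [Field k] [Field K0] [Field FN] [Field F]
  [Algebra W K0] [Algebra K0 FN] [Algebra K0 F] [Algebra W FN] [Algebra W F]
  [IsScalarTower W K0 FN] [IsScalarTower W K0 F]

/-- The local pair of Newton–Čech at a point `Q` of the chart `R` (the literal shape of the
hypothesis `hlocal` of `Glob.exists_global_root_of_valuations_inf`). -/
def LocalPair (O : Fin 3 → ValuationSubring F) (R : Subalgebra W F) (Q : Ideal R) (m : ℕ)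
    (f : F) : Prop :=
  ∃ h : R, h ∉ Q ∧ ∃ s : F, s ^ m * f ∈ R ∧ ∀ i, s - (h : F) ∈ (O i).nonunits

/-- **What the local theory gives at one closed point** (CAR-13 + CAR-14 + CAR-17), with the
local pair abstracted to a predicate `LP`.  `T i` = "the component `i` passes through the point",
`Vc i` = the composite (rank two) valuation ring of the branch, `Rp` = the local ring of the
point.
* factorisation `f = u * h ^ m` (factorial local ring + horizontal divisibility);
* the local pair from a factorisation with trivial gluing datum;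
* either the gluing datum is always trivial (one branch), or the point is a triple point and the
  values `a, b, c ∈ W` of `h⁻¹` on the three branches satisfy the two NODE RELATIONS
  `γ_A a b^(q-1) = γ_C c^q` (norm along `α`) and `γ_A a^q = γ_C b^(q-1) c` (norm along `β`)
  for every representation of the norm of `f` as `unit * g ^ m` with `g` congruent to the
  constants `γ_A`, `γ_C` on the two components of level `N`. -/
def PointPkg (K0 : Type*) [Field K0] [Algebra K0 F] (res : W →+* k) (m q : ℕ) (α β : FN →+* F)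
    (PA PC : ValuationSubring FN) (O : Fin 3 → ValuationSubring F) (LP : F → Prop) : Prop :=
  ∃ (T : Fin 3 → Prop) (Vc : Fin 3 → ValuationSubring F) (Rp : Subring F),
    (∀ w : W, algebraMap W F w ∈ Rp) ∧
    (∀ i, T i → (∀ r ∈ Rp, r ∈ Vc i) ∧ Vc i ≤ O i) ∧
    (∀ f : F, f ≠ 0 → (∀ i, f - 1 ∈ (O i).nonunits) → HorDiv K0 m f →
      ∃ u h : F, u ∈ Rp ∧ u⁻¹ ∈ Rp ∧ h ≠ 0 ∧ f = u * h ^ m) ∧
    (∀ f u h c : F, (∀ i, f - 1 ∈ (O i).nonunits) → u ∈ Rp → u⁻¹ ∈ Rp → f = u * h ^ m →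
      c ∈ Rp → (∀ i, T i → h⁻¹ - c ∈ (Vc i).nonunits) → LP f) ∧
    ((∀ f u h : F, (∀ i, f - 1 ∈ (O i).nonunits) → u ∈ Rp → u⁻¹ ∈ Rp → f = u * h ^ m →
        ∃ c ∈ Rp, ∀ i, T i → h⁻¹ - c ∈ (Vc i).nonunits) ∨
     ((∀ i, T i) ∧ ∀ f u h : F, (∀ i, f - 1 ∈ (O i).nonunits) → u ∈ Rp → u⁻¹ ∈ Rp →
        f = u * h ^ m →
        ∃ a b c : W, h⁻¹ - algebraMap W F a ∈ (Vc 0).nonunits ∧
          h⁻¹ - algebraMap W F b ∈ (Vc 1).nonunits ∧
          h⁻¹ - algebraMap W F c ∈ (Vc 2).nonunits ∧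
          (∀ (g : FN) (c₀ wA wC : W), IsUnit c₀ → normOf α f = algebraMap W FN c₀ * g ^ m →
            g - algebraMap W FN wA ∈ PA.nonunits → g - algebraMap W FN wC ∈ PC.nonunits →
            res (wA * a * b ^ (q - 1)) = res (wC * c ^ q)) ∧
          (∀ (g : FN) (c₀ wA wC : W), IsUnit c₀ → normOf β f = algebraMap W FN c₀ * g ^ m →
            g - algebraMap W FN wA ∈ PA.nonunits → g - algebraMap W FN wC ∈ PC.nonunits →
            res (wA * a ^ q) = res (wC * b ^ (q - 1) * c))))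


/-! ### The norm of a principal unit -/

/-- If `ν ≡ 1` at `PA` and `PC` and `ν = a * g ^ m` with a constant `a ∈ K0ˣ`, then
`ν = c₀ * g' ^ m` with `c₀ ∈ Wˣ` and `g'` congruent to constants `wA`, `wC` at `PA`, `PC`
(`wA ^ m c₀ ≡ 1 ≡ wC ^ m c₀`). -/
theorem norm_normalize [IsAlgClosed k] (res : W →+* k) (hres : Function.Surjective res)
    (q₀ : W) (hker : ∀ w : W, res w = 0 → q₀ ∣ w) (hunit : ∀ w : W, res w ≠ 0 → IsUnit w)
    (hK0 : ∀ a : K0, a ≠ 0 → ∃ (n : ℤ) (w : W), IsUnit w ∧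
      a = algebraMap W K0 q₀ ^ n * algebraMap W K0 w)
    {m : ℕ} (hm : m ≠ 0) {PA PC : ValuationSubring FN}
    (hA : IsUnif PA (algebraMap W FN q₀)) (hC : IsUnif PC (algebraMap W FN q₀))
    (hWA : ∀ w : W, algebraMap W FN w ∈ PA) (hWC : ∀ w : W, algebraMap W FN w ∈ PC)
    {ν : FN} (hνA : ν - 1 ∈ PA.nonunits) (hνC : ν - 1 ∈ PC.nonunits) {a : K0} {g : FN}
    (ha : a ≠ 0) (hν : ν = algebraMap K0 FN a * g ^ m) :
    ∃ (c₀ wA wC : W) (g' : FN), IsUnit c₀ ∧ ν = algebraMap W FN c₀ * g' ^ m ∧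
      g' - algebraMap W FN wA ∈ PA.nonunits ∧ g' - algebraMap W FN wC ∈ PC.nonunits ∧
      res (wA ^ m * c₀) = 1 ∧ res (wC ^ m * c₀) = 1 := by
  obtain ⟨n, w, hw, rfl⟩ := hK0 a ha
  have hϖ0 : algebraMap W FN q₀ ≠ 0 := hA.ne_zero
  have hwF : algebraMap K0 FN (algebraMap W K0 q₀ ^ n * algebraMap W K0 w) =
      algebraMap W FN q₀ ^ n * algebraMap W FN w := by
    rw [map_mul, map_zpow₀, ← IsScalarTower.algebraMap_apply, ← IsScalarTower.algebraMap_apply]
  rw [hwF] at hν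
  obtain ⟨w', hww'⟩ := hw.exists_right_inv
  have hwu : algebraMap W FN w * algebraMap W FN w' = 1 := by rw [← map_mul, hww', map_one]
  have hw0 : algebraMap W FN w ≠ 0 := left_ne_zero_of_mul_eq_one hwu
  have hwinv : (algebraMap W FN w)⁻¹ = algebraMap W FN w' :=
    (eq_inv_of_mul_eq_one_right hwu).symm
  have hν0 : ν ≠ 0 := (pu_unit PA hνA).1
  have hg0 : g ≠ 0 := by
    rintro rfl
    rw [zero_pow hm, mul_zero] at hν
    exact hν0 hν
  have hordν : hA.ord ν = 0 := hA.ord_unit (pu_unit PA hνA).2.1 (pu_unit PA hνA).2.2 hν0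
  have hordw : hA.ord (algebraMap W FN w) = 0 :=
    hA.ord_unit (hWA w) (by rw [hwinv]; exact hWA w') hw0
  have hord : n + (m : ℤ) * hA.ord g = 0 := by
    have h1 : hA.ord ν = hA.ord (algebraMap W FN q₀ ^ n * algebraMap W FN w * g ^ m) := by
      rw [← hν]
    rw [hA.ord_mul (mul_ne_zero (zpow_ne_zero _ hϖ0) hw0) (pow_ne_zero _ hg0),
      hA.ord_mul (zpow_ne_zero _ hϖ0) hw0, hA.ord_zpow, hA.ord_self, hordw, hA.ord_pow,
      hordν] at h1
    linarith
  have hn : n = (- hA.ord g) * (m : ℤ) := by linarith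
  have e1 : algebraMap W FN q₀ ^ n = (algebraMap W FN q₀ ^ (- hA.ord g)) ^ m := by
    rw [hn, zpow_mul, zpow_natCast]
  set g' := algebraMap W FN q₀ ^ (- hA.ord g) * g with hg'
  have hνg' : ν = algebraMap W FN w * g' ^ m := by
    rw [hν, e1, hg']
    ring
  have hgm : g' ^ m = algebraMap W FN w' * ν := by
    rw [hνg', ← mul_assoc, mul_comm (algebraMap W FN w'), hwu, one_mul]
  have hkerP : ∀ P : ValuationSubring FN, (∀ w : W, algebraMap W FN w ∈ P) →
      algebraMap W FN q₀ ∈ P.nonunits → ∀ w : W, res w = 0 → algebraMap W FN w ∈ P.nonunits := by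
    intro P hWP hϖP w hw
    obtain ⟨w', rfl⟩ := hker w hw
    rw [map_mul, mul_comm]
    exact mul_mem_nonunits P (hWP w') hϖP
  have key : ∀ P : ValuationSubring FN, (∀ w : W, algebraMap W FN w ∈ P) →
      (∀ w : W, res w = 0 → algebraMap W FN w ∈ P.nonunits) → ν - 1 ∈ P.nonunits →
      ∃ wP : W, g' - algebraMap W FN wP ∈ P.nonunits ∧ res (wP ^ m * w) = 1 := by
    intro P hWP hkP hνP
    have hgmP : g' ^ m ∈ P := by
      rw [hgm]
      exact P.mul_mem _ _ (hWP w') (mem_of_pu P hνP)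
    have hgP : g' ∈ P := mem_of_pow_mem_val P hm hgmP
    have h1 : g' ^ m - algebraMap W FN w' ∈ P.nonunits := by
      have e : g' ^ m - algebraMap W FN w' = algebraMap W FN w' * (ν - 1) := by
        rw [hgm]
        ring
      rw [e]
      exact mul_mem_nonunits P (hWP w') hνP
    obtain ⟨wP, hwP⟩ := exists_const_of_pow res hres P hWP hkP hm hgP w' h1
    refine ⟨wP, hwP, ?_⟩
    have h2 : algebraMap W FN (wP ^ m * w - 1) ∈ P.nonunits := by
      have e : algebraMap W FN (wP ^ m * w - 1) =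
          (ν - 1) - algebraMap W FN w * (g' ^ m - algebraMap W FN wP ^ m) := by
        rw [map_sub, map_mul, map_pow, map_one, hνg']
        ring
      rw [e]
      exact nonunits_sub P hνP
        (mul_mem_nonunits P (hWP w) (cong_pow P hgP (hWP wP) hwP m))
    by_contra hne
    have h3 : res (wP ^ m * w - 1) ≠ 0 := by
      rw [map_sub, map_one, sub_ne_zero]
      exact hne
    obtain ⟨z, hz⟩ := (hunit _ h3).exists_right_inv
    exact notMem_nonunits_of_mul_eq_one P (hWP z) (by rw [← map_mul, hz, map_one]) h2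
  obtain ⟨wA, hgA, hrA⟩ := key PA hWA (hkerP PA hWA hA.mem_nonunits) hνA
  obtain ⟨wC, hgC, hrC⟩ := key PC hWC (hkerP PC hWC hC.mem_nonunits) hνC
  exact ⟨w, wA, wC, g', hw, hνg', hgA, hgC, hrA, hrC⟩

/-! ### The chain -/

/-- **THE ABSTRACT CHAIN of CAR-CORE** (see the file header). -/
theorem chain [IsAlgClosed k]
    (res : W →+* k) (hres : Function.Surjective res) (q₀ : W)
    (hker : ∀ w : W, res w = 0 → q₀ ∣ w)
    (hunit : ∀ w : W, res w ≠ 0 → IsUnit w)
    (hK0 : ∀ a : K0, a ≠ 0 → ∃ (n : ℤ) (w : W), IsUnit w ∧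
      a = algebraMap W K0 q₀ ^ n * algebraMap W K0 w)
    (m q : ℕ) (hcop : Nat.Coprime m q)
    (α β : FN →+* F) (hαK : ∀ a : K0, α (algebraMap K0 FN a) = algebraMap K0 F a)
    (hβK : ∀ a : K0, β (algebraMap K0 FN a) = algebraMap K0 F a)
    (PA PC : ValuationSubring FN) (O : Fin 3 → ValuationSubring F) (ϖ d : F)
    (D : NF.Data α β q PA PC (O 0) (O 1) (O 2) (algebraMap W FN q₀) ϖ d)
    (hWA : ∀ w : W, algebraMap W FN w ∈ PA) (hWC : ∀ w : W, algebraMap W FN w ∈ PC)
    (R R' : Subalgebra W F) (cusp : Ideal R' → Prop)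
    (hptR : ∀ Q : Ideal R, Q.IsMaximal → algebraMap W R q₀ ∈ Q →
      PointPkg K0 res m q α β PA PC O (LocalPair O R Q m))
    (hptR' : ∀ Q : Ideal R', Q.IsMaximal → algebraMap W R' q₀ ∈ Q → cusp Q →
      PointPkg K0 res m q α β PA PC O (LocalPair O R' Q m))
    (hglob : ∀ f : F, (∀ i, f - 1 ∈ (O i).nonunits) →
      (∀ Q : Ideal R, Q.IsMaximal → algebraMap W R q₀ ∈ Q → LocalPair O R Q m f) →
      (∀ Q : Ideal R', Q.IsMaximal → algebraMap W R' q₀ ∈ Q → cusp Q → LocalPair O R' Q m f) →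
      ∃ (c : W) (τ : F), τ ≠ 0 ∧ algebraMap W F c ≠ 0 ∧ f = algebraMap W F c * τ ^ m)
    (f : F) (hf0 : f ≠ 0) (hhor : HorDiv K0 m f)
    (hNα : ∃ (a : K0) (g : FN), a ≠ 0 ∧ normOf α f = algebraMap K0 FN a * g ^ m)
    (hNβ : ∃ (a : K0) (g : FN), a ≠ 0 ∧ normOf β f = algebraMap K0 FN a * g ^ m) :
    ∃ (b : K0) (h : F), b ≠ 0 ∧ h ≠ 0 ∧
      f ^ ((q - 1) * (q + 1) * ((q - 1) * (q + 1))) = algebraMap K0 F b * h ^ m := by
  classical
  have hq := D.hq
  have hq1 := hq.one_lt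
  have hm : m ≠ 0 := by
    rintro rfl
    rw [Nat.coprime_zero_left] at hcop
    exact hq1.ne' hcop
  -- constants
  have hαW : ∀ w : W, α (algebraMap W FN w) = algebraMap W F w := fun w => by
    rw [IsScalarTower.algebraMap_apply W K0 FN, hαK, ← IsScalarTower.algebraMap_apply]
  have hϖ : ϖ = algebraMap W F q₀ := by rw [← D.αϖ, hαW]
  have hϖK : ϖ = algebraMap K0 F (algebraMap W K0 q₀) := by
    rw [hϖ, IsScalarTower.algebraMap_apply W K0 F]
  have hϖ0 : ϖ ≠ 0 := D.ha.ne_zero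
  have hWO : ∀ i, ∀ w : W, algebraMap W F w ∈ O i := by
    refine forall_fin3 (fun w => ?_) (fun w => ?_) (fun w => ?_)
    · have h1 : algebraMap W FN w ∈ (O 0).comap α := by
        rw [D.αa]
        exact hWA w
      rw [ValuationSubring.mem_comap, hαW] at h1
      exact h1
    · have h1 : algebraMap W FN w ∈ (O 1).comap α := by
        rw [D.αb]
        exact hWA w
      rw [ValuationSubring.mem_comap, hαW] at h1
      exact h1
    · have h1 : algebraMap W FN w ∈ (O 2).comap α := by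
        rw [D.αc]
        exact hWC w
      rw [ValuationSubring.mem_comap, hαW] at h1
      exact h1
  have hϖO : ∀ i, ϖ ∈ (O i).nonunits := by
    refine forall_fin3 D.ha.mem_nonunits ?_ D.hc.mem_nonunits
    rw [← D.hb.ord_pos_iff hϖ0, D.ordb]
    have h1 : (1 : ℤ) < q := by exact_mod_cast hq1
    omega
  have hkerO : ∀ i, ∀ w : W, res w = 0 → algebraMap W F w ∈ (O i).nonunits := by
    intro i w hw
    obtain ⟨w', rfl⟩ := hker w hw
    rw [map_mul, ← hϖ, mul_comm]
    exact mul_mem_nonunits (O i) (hWO i w') (hϖO i)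
  have hkerA : ∀ w : W, res w = 0 → algebraMap W FN w ∈ PA.nonunits := by
    intro w hw
    obtain ⟨w', rfl⟩ := hker w hw
    rw [map_mul, mul_comm]
    exact mul_mem_nonunits PA (hWA w') D.hA.mem_nonunits
  have hkerC : ∀ w : W, res w = 0 → algebraMap W FN w ∈ PC.nonunits := by
    intro w hw
    obtain ⟨w', rfl⟩ := hker w hw
    rw [map_mul, mul_comm]
    exact mul_mem_nonunits PC (hWC w') D.hC.mem_nonunits
  have hresunit : ∀ w : W, IsUnit w → res w ≠ 0 := fun w hw => (hw.map res).ne_zero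
  have hunitF : ∀ w : W, res w ≠ 0 → algebraMap W F w ≠ 0 := by
    intro w hw h0
    obtain ⟨z, hz⟩ := (hunit w hw).exists_right_inv
    have h1 : algebraMap W F w * algebraMap W F z = 1 := by rw [← map_mul, hz, map_one]
    rw [h0, zero_mul] at h1
    exact zero_ne_one h1
  -- Step 1: the normal form
  obtain ⟨aα, gα, haα, hNα⟩ := hNα
  obtain ⟨aβ, gβ, haβ, hNβ⟩ := hNβ
  have hCst : ∀ c ∈ Set.range (algebraMap K0 FN), c ≠ 0 → ∃ (n : ℤ) (c' ε : FN),
      c = algebraMap W FN q₀ ^ n * c' ^ m * ε ∧ ε - 1 ∈ PA.nonunits ∧ ε - 1 ∈ PC.nonunits := by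
    rintro _ ⟨a, rfl⟩ hc0
    have ha : a ≠ 0 := fun h0 => hc0 (by rw [h0, map_zero])
    obtain ⟨n, w, hw, rfl⟩ := hK0 a ha
    obtain ⟨z, hz⟩ := IsAlgClosed.exists_pow_nat_eq (res w) (Nat.pos_of_ne_zero hm)
    obtain ⟨c₁, rfl⟩ := hres z
    have hc₁ : res c₁ ≠ 0 := by
      intro h0
      rw [h0, zero_pow hm] at hz
      exact hresunit w hw hz.symm
    obtain ⟨c₂, hc₂⟩ := (hunit c₁ hc₁).exists_right_inv
    have hc₁F : algebraMap W FN c₁ * algebraMap W FN c₂ = 1 := by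
      rw [← map_mul, hc₂, map_one]
    have hc₁0 : algebraMap W FN c₁ ≠ 0 := left_ne_zero_of_mul_eq_one hc₁F
    have hc₂e : algebraMap W FN c₂ = (algebraMap W FN c₁)⁻¹ := eq_inv_of_mul_eq_one_right hc₁F
    have e : algebraMap W FN w / algebraMap W FN c₁ ^ m - 1 =
        algebraMap W FN c₂ ^ m * algebraMap W FN (w - c₁ ^ m) := by
      rw [hc₂e, map_sub, map_pow, inv_pow, div_sub_one (pow_ne_zero m hc₁0), div_eq_inv_mul]
    have hr0 : res (w - c₁ ^ m) = 0 := by rw [map_sub, map_pow, hz, sub_self]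
    refine ⟨n, algebraMap W FN c₁, algebraMap W FN w / algebraMap W FN c₁ ^ m, ?_, ?_, ?_⟩
    · rw [map_mul, map_zpow₀, ← IsScalarTower.algebraMap_apply,
        ← IsScalarTower.algebraMap_apply]
      field_simp
    · rw [e]
      exact mul_mem_nonunits PA (pow_mem (hWA c₂) m) (hkerA _ hr0)
    · rw [e]
      exact mul_mem_nonunits PC (pow_mem (hWC c₂) m) (hkerC _ hr0)
  obtain ⟨j, G, f₃, hG0, hfE, h3a, h3b, h3c⟩ := D.normalForm_of_const m hcop
    (Set.range (algebraMap K0 FN)) hCst f hf0 ⟨_, ⟨aα, rfl⟩, gα, hNα⟩ ⟨_, ⟨aβ, rfl⟩, gβ, hNβ⟩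
  set E := (q - 1) * (q + 1) with hE
  have h3 : ∀ i, f₃ - 1 ∈ (O i).nonunits := forall_fin3 h3a h3b h3c
  have hf₃0 : f₃ ≠ 0 := (pu_unit (O 0) h3a).1
  -- the constant `ϖ ^ j`
  have hcKF : algebraMap K0 F (algebraMap W K0 q₀ ^ j) = ϖ ^ j := by
    rw [map_zpow₀, ← hϖK]
  have hcK0 : algebraMap W K0 q₀ ^ j ≠ 0 := by
    intro h0
    have h1 : ϖ ^ j = 0 := by rw [← hcKF, h0, map_zero]
    exact zpow_ne_zero j hϖ0 h1
  set cK : K0 := algebraMap W K0 q₀ ^ j with hcK
  set X : F := ϖ ^ j with hX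
  have hX0 : X ≠ 0 := zpow_ne_zero j hϖ0
  -- Step 2: `f₃` is horizontally divisible and has the norm property
  have hf₃eq : f₃ = f ^ E * (algebraMap K0 F cK)⁻¹ * (G ^ m)⁻¹ := by
    rw [hfE, hcKF]
    field_simp
  have hhor₃ : HorDiv K0 m f₃ := by
    rw [hf₃eq]
    exact ((hhor.pow E).mul (horDiv_algebraMap m cK).inv).mul (horDiv_pow_self (K := K0) m G).inv
  have normdata : ∀ φ : FN →+* F, (letI := φ.toAlgebra; FiniteDimensional FN F) →
      (letI := φ.toAlgebra; Module.finrank FN F) = q →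
      (∀ a : K0, φ (algebraMap K0 FN a) = algebraMap K0 F a) →
      ∀ (a : K0) (g : FN), a ≠ 0 → normOf φ f = algebraMap K0 FN a * g ^ m →
      ∃ (a₃ : K0) (g₃ : FN), a₃ ≠ 0 ∧ normOf φ f₃ = algebraMap K0 FN a₃ * g₃ ^ m := by
    intro φ hfin hdeg hφK a g ha hN
    have hNG : normOf φ G ≠ 0 := normOf_ne_zero φ hfin hG0
    have h1 : normOf φ (f ^ E) = normOf φ X * normOf φ G ^ m * normOf φ f₃ := by
      rw [hfE, map_mul, map_mul, map_pow]
    have h2 : normOf φ X = algebraMap K0 FN cK ^ q := by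
      rw [← hcKF, ← hφK, normOf_map φ hdeg]
    rw [map_pow, hN, h2] at h1
    have hc : algebraMap K0 FN cK ≠ 0 := (map_ne_zero _).mpr hcK0
    refine ⟨a ^ E / cK ^ q, g ^ E / normOf φ G,
      div_ne_zero (pow_ne_zero _ ha) (pow_ne_zero _ hcK0), ?_⟩
    rw [map_div₀, map_pow, map_pow, div_pow]
    field_simp
    rw [mul_pow] at h1
    linear_combination (-1 : FN) * h1
  obtain ⟨a₃, g₃, ha₃, hN₃α⟩ := normdata α D.finα D.degα hαK aα gα haα hNα
  obtain ⟨b₃, k₃, hb₃, hN₃β⟩ := normdata β D.finβ D.degβ hβK aβ gβ haβ hNβ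
  have hf₃mem : ∀ i, f₃ ∈ O i ∧ f₃⁻¹ ∈ O i := fun i => (pu_unit (O i) (h3 i)).2
  have hναA : normOf α f₃ - 1 ∈ PA.nonunits := by
    have h1 := D.point_αA (W := PA) (Wa := O 0) (Wb := O 1) le_rfl le_rfl D.αa D.αb hf₃0
      (hf₃mem 0).1 (hf₃mem 0).2 (hf₃mem 1).1 (hf₃mem 1).2 (c₁ := 1) (c₂ := 1) PA.one_mem
      PA.one_mem (by rw [map_one]; exact h3a) (by rw [map_one]; exact h3b)
    rwa [one_pow, mul_one] at h1
  have hναC : normOf α f₃ - 1 ∈ PC.nonunits :=
    D.point_αC (W := PC) (Wc := O 2) le_rfl D.αc hf₃0 (hf₃mem 2).1 (hf₃mem 2).2 (c := 1)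
      (by rw [map_one]; exact pu_pow (O 2) h3c q)
  have hνβA : normOf β f₃ - 1 ∈ PA.nonunits :=
    D.point_βA (W := PA) (Wa := O 0) le_rfl D.βa hf₃0 (hf₃mem 0).1 (hf₃mem 0).2 (c := 1)
      (by rw [map_one]; exact pu_pow (O 0) h3a q)
  have hνβC : normOf β f₃ - 1 ∈ PC.nonunits := by
    have h1 := D.point_βC (W := PC) (Wb := O 1) (Wc := O 2) le_rfl le_rfl D.βb D.βc hf₃0
      (hf₃mem 1).1 (hf₃mem 1).2 (hf₃mem 2).1 (hf₃mem 2).2 (c₁ := 1) (c₂ := 1) PC.one_mem
      PC.one_mem (by rw [map_one]; exact h3b) (by rw [map_one]; exact h3c)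
    rwa [one_pow, mul_one] at h1
  obtain ⟨c₀, wA, wC, g', hc₀, hNα', hgA, hgC, hrA, hrC⟩ := norm_normalize res hres q₀ hker
    hunit hK0 hm D.hA D.hC hWA hWC hναA hναC ha₃ hN₃α
  obtain ⟨c₀', wA', wC', g'', hc₀', hNβ', hgA', hgC', hrA', hrC'⟩ := norm_normalize res hres q₀
    hker hunit hK0 hm D.hA D.hC hWA hWC hνβA hνβC hb₃ hN₃β
  -- Step 3: the constants and the killing function
  have hc₀k : res c₀ ≠ 0 := hresunit c₀ hc₀
  have hc₀k' : res c₀' ≠ 0 := hresunit c₀' hc₀'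
  rw [map_mul, map_pow] at hrA hrC hrA' hrC'
  have hγ0 : ∀ {x y : k}, x ^ m * y = 1 → x ≠ 0 := by
    intro x y h h0
    rw [h0, zero_pow hm, zero_mul] at h
    exact zero_ne_one h
  have hγA0 := hγ0 hrA
  have hγC0 := hγ0 hrC
  have hγA0' := hγ0 hrA'
  have hγC0' := hγ0 hrC'
  set Ak : k := res wC / res wA with hAk
  set Bk : k := res wC' / res wA' with hBk
  have hAm : Ak ^ m = 1 := by
    have h1 : res wC ^ m = res wA ^ m := mul_right_cancel₀ hc₀k (hrC.trans hrA.symm)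
    rw [hAk, div_pow, h1, div_self (pow_ne_zero m hγA0)]
  have hBm : Bk ^ m = 1 := by
    have h1 : res wC' ^ m = res wA' ^ m := mul_right_cancel₀ hc₀k' (hrC'.trans hrA'.symm)
    rw [hBk, div_pow, h1, div_self (pow_ne_zero m hγA0')]
  have hA0 : Ak ≠ 0 := div_ne_zero hγC0 hγA0
  have hB0 : Bk ≠ 0 := div_ne_zero hγC0' hγA0'
  obtain ⟨v₁, hv₁⟩ := hres (((Ak * Bk)⁻¹) ^ (q - 1))
  obtain ⟨v₂, hv₂⟩ := hres (Bk / Ak ^ q)
  have hv₁m : res (v₁ ^ m) = 1 := by
    have h1 : ((Ak * Bk)⁻¹) ^ m = 1 := by rw [inv_pow, mul_pow, hAm, hBm, mul_one, inv_one]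
    rw [map_pow, hv₁, ← pow_mul, mul_comm (q - 1) m, pow_mul, h1, one_pow]
  have hv₂m : res (v₂ ^ m) = 1 := by
    rw [map_pow, hv₂, div_pow, hBm, ← pow_mul, mul_comm q m, pow_mul, hAm, one_pow, div_one]
  have hv₁0 : res v₁ ≠ 0 := by
    rw [hv₁]
    exact pow_ne_zero _ (inv_ne_zero (mul_ne_zero hA0 hB0))
  have hv₂0 : res v₂ ≠ 0 := by
    rw [hv₂]
    exact div_ne_zero hB0 (pow_ne_zero _ hA0)
  obtain ⟨H, hH0, hHa, hHb, hHc⟩ := exists_approx3 D.ha D.hb D.hc D.ne_ab D.ne_bc D.ne_ac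
    (algebraMap W F v₁) (algebraMap W F v₂) 1 (hunitF v₁ hv₁0) (hunitF v₂ hv₂0) one_ne_zero
  have hH0' : H - algebraMap W F v₁ ∈ (O 0).nonunits :=
    sub_of_pu (O 0) (hWO 0 v₁) (hunitF v₁ hv₁0) hHa
  have hH1' : H - algebraMap W F v₂ ∈ (O 1).nonunits :=
    sub_of_pu (O 1) (hWO 1 v₂) (hunitF v₂ hv₂0) hHb
  have hH2' : H - algebraMap W F 1 ∈ (O 2).nonunits := by
    rw [div_one] at hHc
    rw [map_one]
    exact hHc
  set vv : Fin 3 → W := ![v₁, v₂, 1] with hvv
  have hHv : ∀ i, H - algebraMap W F (vv i) ∈ (O i).nonunits := forall_fin3 hH0' hH1' hH2'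
  have hvvm : ∀ i, res (vv i ^ m) = 1 :=
    forall_fin3 hv₁m hv₂m (by show res (1 ^ m) = 1; rw [one_pow, map_one])
  have hHO : ∀ i, H ∈ O i := fun i => mem_of_sub_nonunits (O i) (hHv i) (hWO i _)
  have hHm : ∀ i, H ^ m - 1 ∈ (O i).nonunits := by
    intro i
    have e : H ^ m - 1 = (H ^ m - algebraMap W F (vv i) ^ m)
        + algebraMap W F (vv i ^ m - 1) := by
      rw [map_sub, map_pow, map_one]
      ring
    rw [e]
    exact nonunits_add (O i) (cong_pow (O i) (hHO i) (hWO i _) (hHv i) m)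
      (hkerO i _ (by rw [map_sub, hvvm i, map_one, sub_self]))
  have h4 : ∀ i, f₃ ^ E * H⁻¹ ^ m - 1 ∈ (O i).nonunits := by
    intro i
    rw [inv_pow]
    exact pu_mul (O i) (pu_pow (O i) (h3 i) E) (pu_inv (O i) (hHm i))
  -- Step 4: the local pairs
  have key : ∀ LP : F → Prop, PointPkg K0 res m q α β PA PC O LP →
      LP (f₃ ^ E * H⁻¹ ^ m) := by
    rintro LP ⟨T, Vc, Rp, hWRp, hTV, hfactor, hpair, hglue⟩
    obtain ⟨u, h, hu, hu', hh0, hfuh⟩ := hfactor f₃ hf₃0 h3 hhor₃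
    have hf₄' : f₃ ^ E * H⁻¹ ^ m = u ^ E * (h ^ E * H⁻¹) ^ m := by
      rw [hfuh]
      ring
    have huE : u ^ E ∈ Rp := pow_mem hu E
    have huE' : (u ^ E)⁻¹ ∈ Rp := by
      rw [← inv_pow]
      exact pow_mem hu' E
    rcases hglue with hgl | ⟨hTall, hnode⟩
    · obtain ⟨c, hc, hcg⟩ := hgl _ (u ^ E) (h ^ E * H⁻¹) h4 huE huE' hf₄'
      exact hpair _ _ _ c h4 huE huE' hf₄' hc hcg
    · obtain ⟨a, b, c, hva, hvb, hvc, hrelα, hrelβ⟩ := hnode f₃ u h h3 hu hu' hfuh
      have rα := hrelα g' c₀ wA wC hc₀ hNα' hgA hgC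
      have rβ := hrelβ g'' c₀' wA' wC' hc₀' hNβ' hgA' hgC'
      have hVcO : ∀ i, (O i).nonunits ≤ (Vc i).nonunits := fun i =>
        ValuationSubring.nonunits_le_nonunits.mpr (hTV i (hTall i)).2
      have hWVc : ∀ i, ∀ w : W, algebraMap W F w ∈ Vc i := fun i w =>
        (hTV i (hTall i)).1 _ (hWRp w)
      have hkerVc : ∀ i, ∀ w : W, res w = 0 → algebraMap W F w ∈ (Vc i).nonunits :=
        fun i w hw => hVcO i (hkerO i w hw)
      have hu0 : u ≠ 0 := by
        rintro rfl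
        rw [zero_mul] at hfuh
        exact hf₃0 hfuh
      have hhVc : ∀ i, h ∈ Vc i := by
        intro i
        refine mem_of_pow_mem_val (Vc i) hm ?_
        have e : h ^ m = f₃ * u⁻¹ := by
          rw [hfuh]
          field_simp
        rw [e]
        exact (Vc i).mul_mem _ _ (mem_of_pu (Vc i) (hVcO i (h3 i))) ((hTV i (hTall i)).1 _ hu')
      have hval0 : ∀ i (w : W), h⁻¹ - algebraMap W F w ∈ (Vc i).nonunits → res w ≠ 0 := by
        intro i w hw h0
        have h1 : h⁻¹ ∈ (Vc i).nonunits := by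
          have e : h⁻¹ = (h⁻¹ - algebraMap W F w) + algebraMap W F w := by ring
          rw [e]
          exact nonunits_add (Vc i) hw (hkerVc i w h0)
        exact notMem_nonunits_of_mul_eq_one (Vc i) (hhVc i) (inv_mul_cancel₀ hh0) h1
      have hb0 : res b ≠ 0 := hval0 1 b hvb
      have hc0 : res c ≠ 0 := hval0 2 c hvc
      rw [map_mul, map_mul, map_pow, map_mul, map_pow] at rα
      rw [map_mul, map_pow, map_mul, map_mul, map_pow] at rβ
      have hα' : res a * res b ^ (q - 1) = Ak * res c ^ (q - 1 + 1) := by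
        rw [Nat.sub_add_cancel hq1.le, hAk]
        field_simp
        linear_combination rα
      have hβ' : res a ^ (q - 1 + 1) = Bk * res b ^ (q - 1) * res c := by
        rw [Nat.sub_add_cancel hq1.le, hBk]
        field_simp
        linear_combination rβ
      obtain ⟨r1, r2⟩ := Glue.ratio_pow_eq (q - 1) hb0 hc0 hα' hβ'
      have hq2 : q - 1 + 2 = q + 1 := by omega
      rw [hq2] at r1 r2
      rw [Nat.sub_add_cancel hq1.le, ← hE] at r2
      have hinv : (h ^ E * H⁻¹)⁻¹ = h⁻¹ ^ E * H := by rw [mul_inv, inv_inv, inv_pow]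
      set ww : Fin 3 → W := ![a, b, c] with hww
      have hvw : ∀ i, h⁻¹ - algebraMap W F (ww i) ∈ (Vc i).nonunits := forall_fin3 hva hvb hvc
      have hres_eq : ∀ i, res (ww i ^ E * vv i) = res (c ^ E) := by
        refine forall_fin3 ?_ ?_ ?_
        · show res (a ^ E * v₁) = res (c ^ E)
          rw [map_mul, map_pow, map_pow, hv₁, hE, mul_comm (q - 1) (q + 1), pow_mul, r1,
            pow_mul, mul_pow, inv_pow]
          field_simp
        · show res (b ^ E * v₂) = res (c ^ E)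
          rw [map_mul, map_pow, map_pow, hv₂]
          field_simp
          linear_combination r2
        · show res (c ^ E * 1) = res (c ^ E)
          rw [mul_one]
      refine hpair _ (u ^ E) (h ^ E * H⁻¹) (algebraMap W F (c ^ E)) h4 huE huE' hf₄'
        (hWRp _) ?_
      intro i _
      rw [hinv]
      have hhi : h⁻¹ ∈ Vc i := mem_of_sub_nonunits (Vc i) (hvw i) (hWVc i _)
      have hHi : H ∈ Vc i := mem_of_sub_nonunits (Vc i) (hVcO i (hHv i)) (hWVc i _)
      have e : h⁻¹ ^ E * H - algebraMap W F (c ^ E) =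
          (h⁻¹ ^ E * H - algebraMap W F (ww i) ^ E * algebraMap W F (vv i))
            + algebraMap W F (ww i ^ E * vv i - c ^ E) := by
        simp only [map_sub, map_mul, map_pow]
        ring
      rw [e]
      exact nonunits_add (Vc i)
        (cong_mul (Vc i) (pow_mem (hWVc i _) E) hHi
          (cong_pow (Vc i) hhi (hWVc i _) (hvw i) E) (hVcO i (hHv i)))
        (hkerVc i _ (by rw [map_sub, hres_eq i, sub_self]))
  -- Step 5: the global step
  obtain ⟨c, τ, hτ, hc, hf₄eq⟩ := hglob _ h4 (fun Q hQ hqQ => key _ (hptR Q hQ hqQ))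
    (fun Q hQ hqQ hcu => key _ (hptR' Q hQ hqQ hcu))
  refine ⟨cK ^ E * algebraMap W K0 c, G ^ E * τ * H, ?_, ?_, ?_⟩
  · refine mul_ne_zero (pow_ne_zero _ hcK0) ?_
    intro h0
    apply hc
    rw [IsScalarTower.algebraMap_apply W K0 F, h0, map_zero]
  · exact mul_ne_zero (mul_ne_zero (pow_ne_zero _ hG0) hτ) hH0
  · rw [map_mul, map_pow, hcKF, ← IsScalarTower.algebraMap_apply]
    have e1 : f₃ ^ E = (f₃ ^ E * H⁻¹ ^ m) * H ^ m := by
      rw [inv_pow]
      field_simp
    calc f ^ (E * E) = (f ^ E) ^ E := pow_mul f E E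
      _ = (X * G ^ m * f₃) ^ E := by rw [hfE]
      _ = X ^ E * (G ^ E) ^ m * f₃ ^ E := by ring
      _ = X ^ E * (G ^ E) ^ m * (algebraMap W F c * τ ^ m * H ^ m) := by rw [e1, hf₄eq]
      _ = X ^ E * algebraMap W F c * (G ^ E * τ * H) ^ m := by ring

end Chain

end Fermat.Agent.CAR.Core
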