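/-
CAR-18 (assembly, helper71): **from the abstract chain to `NormBc.NewInertiaK0At`.**

`newInertiaK0At_of_chain` : `Core.chain` at `K0 := K`, `FN := FNK K (M' * q)`,
`F := FNK K (M' * q * q)`, `α := alphaStar K M' q`, `β := betaStar K M' q`, `m := p ^ n` for every
`n`, gives the literal `NormBc.NewInertiaK0At (M' * q) q p K` with the exponent
`c = ((q - 1) * (q + 1))²`.  The ring `W`, its residue field `k` and everything about the two
charts stay abstract (they are the binders of `Core.chain`, uniformly in `n`).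
-/
import Mathlib
import Fermat.Agent.CAR.Core.Chain
import Fermat.Agent.CAR.Formal.NormBc
import Fermat.Agent.CAR.V3.RestrictNF

set_option autoImplicit false

namespace Fermat.Agent.CAR.Core

open AlgebraicCurve ModularCurve Fermat.Agent.ESJ Fermat.Agent.ESJ.Jac Fermat.Agent.BAD.Dict
open Fermat.Agent.ESJ.Dict.Bc Fermat.Agent.CAR.Formal Fermat.Agent.CAR.Formal.NF
open Fermat.Agent.CAR.Formal.Descent Fermat.Agent.CAR.V3.RestrictNF

local notation "Qb" => AlgebraicClosure ℚ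

/-- `normAlong` of an algebra embedding is `NF.normOf` of the underlying ring homomorphism. -/
theorem normAlong_eq_normOf {K F F' : Type*} [Field K] [Field F] [Field F'] [Algebra K F]
    [Algebra K F'] (φ : F →ₐ[K] F') (x : F') : normAlong φ x = normOf φ.toRingHom x :=
  rfl

set_option maxHeartbeats 1000000 in
set_option synthInstance.maxHeartbeats 400000 in
/-- **`NewInertiaK0At` from the chain.**  All the binders of `Core.chain` for `m = p ^ n`,
uniformly in `n`. -/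
theorem newInertiaK0At_of_chain (K : IntermediateField ℚ Qb) (M' q p : ℕ) [NeZero M']
    [NeZero q] {W k : Type*} [CommRing W] [Field k] [IsAlgClosed k] [Algebra W ↥K]
    [Algebra W (FNK ↥K (M' * q))] [Algebra W (FNK ↥K (M' * q * q))]
    [IsScalarTower W ↥K (FNK ↥K (M' * q))] [IsScalarTower W ↥K (FNK ↥K (M' * q * q))]
    (res : W →+* k) (hres : Function.Surjective res) (q₀ : W)
    (hker : ∀ w : W, res w = 0 → q₀ ∣ w) (hunit : ∀ w : W, res w ≠ 0 → IsUnit w)
    (hK0 : ∀ a : ↥K, a ≠ 0 → ∃ (n : ℤ) (w : W), IsUnit w ∧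
      a = algebraMap W ↥K q₀ ^ n * algebraMap W ↥K w)
    (hcop : ∀ n : ℕ, Nat.Coprime (p ^ n) q)
    (PA PC : ValuationSubring (FNK ↥K (M' * q)))
    (O : Fin 3 → ValuationSubring (FNK ↥K (M' * q * q)))
    (ϖ d : FNK ↥K (M' * q * q))
    (D : NF.Data (alphaStar ↥K M' q) (betaStar ↥K M' q) q PA PC (O 0) (O 1) (O 2)
      (algebraMap W (FNK ↥K (M' * q)) q₀) ϖ d)
    (hWA : ∀ w : W, algebraMap W (FNK ↥K (M' * q)) w ∈ PA)
    (hWC : ∀ w : W, algebraMap W (FNK ↥K (M' * q)) w ∈ PC)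
    (R R' : Subalgebra W (FNK ↥K (M' * q * q))) (cusp : Ideal R' → Prop)
    (hptR : ∀ (n : ℕ) (Q : Ideal R), Q.IsMaximal → algebraMap W R q₀ ∈ Q →
      PointPkg ↥K res (p ^ n) q (alphaStar ↥K M' q) (betaStar ↥K M' q) PA PC O
        (LocalPair O R Q (p ^ n)))
    (hptR' : ∀ (n : ℕ) (Q : Ideal R'), Q.IsMaximal → algebraMap W R' q₀ ∈ Q → cusp Q →
      PointPkg ↥K res (p ^ n) q (alphaStar ↥K M' q) (betaStar ↥K M' q) PA PC O
        (LocalPair O R' Q (p ^ n)))
    (hglob : ∀ (n : ℕ) (f : FNK ↥K (M' * q * q)), (∀ i, f - 1 ∈ (O i).nonunits) →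
      (∀ Q : Ideal R, Q.IsMaximal → algebraMap W R q₀ ∈ Q → LocalPair O R Q (p ^ n) f) →
      (∀ Q : Ideal R', Q.IsMaximal → algebraMap W R' q₀ ∈ Q → cusp Q →
        LocalPair O R' Q (p ^ n) f) →
      ∃ (c : W) (τ : FNK ↥K (M' * q * q)), τ ≠ 0 ∧
        algebraMap W (FNK ↥K (M' * q * q)) c ≠ 0 ∧
        f = algebraMap W (FNK ↥K (M' * q * q)) c * τ ^ (p ^ n))
    (hhor : ∀ (n : ℕ) (f : FNK ↥K (M' * q * q)), f ≠ 0 →
      (∃ D : Divisor Qb (FNK Qb (M' * q * q)),
        IsDiv (p ^ n • D) (bcK (algebraMap ↥K Qb) (modularFunctionFieldFull (M' * q * q)) f)) →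
      HorDiv ↥K (p ^ n) f) :
    NormBc.NewInertiaK0At (M' * q) q p K := by
  have hq := D.hq
  refine ⟨(q - 1) * (q + 1) * ((q - 1) * (q + 1)), ?_, ?_⟩
  · have h1 : 0 < q - 1 := Nat.sub_pos_of_lt hq.one_lt
    positivity
  · intro n f hf0 hD hα hβ
    obtain ⟨a, g, ha, -, hNα⟩ := hα
    obtain ⟨b, g', hb, -, hNβ⟩ := hβ
    exact chain res hres q₀ hker hunit hK0 (p ^ n) q (hcop n) (alphaStar ↥K M' q)
      (betaStar ↥K M' q) (fun a => (heckeAlphaBar ↥K (M' * q) q).commutes a)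
      (fun a => (heckeBetaBar ↥K (M' * q) q).commutes a) PA PC O ϖ d D hWA hWC R R' cusp
      (hptR n) (hptR' n) (hglob n) f hf0 (hhor n f hf0 hD) ⟨a, g, ha, hNα⟩ ⟨b, g', hb, hNβ⟩

end Fermat.Agent.CAR.Core
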