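/-
CAR-39 (assembly, helper71): **the chain at the two charts of `K · F_{M'q²}`.**

`newInertiaK0At_of_points` : `NormBc.NewInertiaK0At (M' * q) q p K` for an intermediate field `K`
of `ℚ̄ / ℚ` which is the fraction field of a Noetherian integrally closed domain `W`, from

* the front-end data of `Core.chain` (`res`, `q₀`, `hker`, `hunit`, `hK0`),
* the normal-form record `NF.Data` for the three vertical valuation rings `O 0, O 1, O 2`,
* the two chart rings `chart W x`, `chart W x⁻¹` of a function `x` of nonzero `q`-order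
  (inclusions in the `O i` and the minimal primes over `q₀`),
* the point packages `PointPkg` at the closed points of `chart W x` and at the cusps of
  `chart W x⁻¹`, for every `m = p ^ n`.

The chart theorem (`Charts.exists_eq_const_mul_pow_of_charts_FNK`) and the horizontal part
(`Horizontal.dvd_ord_of_isDiv`) are plugged in here; `hqV` and `he` of the chart theorem are read
off `NF.Data`.
-/
import Mathlib
import Fermat.Agent.CAR.Core.K0Glue
import Fermat.Agent.CAR.Glob.ChartsFNK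
import Fermat.Agent.CAR.Formal.HorizontalInst

set_option autoImplicit false

namespace Fermat.Agent.CAR.Core

open AlgebraicCurve ModularCurve Fermat.Agent.ESJ Fermat.Agent.ESJ.Jac Fermat.Agent.BAD.Dict
open Fermat.Agent.ESJ.Dict.Bc Fermat.Agent.CAR.Formal Fermat.Agent.CAR.Formal.NF
open Fermat.Agent.CAR.Formal.Descent Fermat.Agent.CAR.V3.RestrictNF
open Fermat.Agent.CAR.Glob.Charts

local notation "Qb" => AlgebraicClosure ℚ

section Abstract

variable {FN F : Type*} [Field FN] [Field F] {α β : FN →+* F} {q : ℕ}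
  {PA PC : ValuationSubring FN} {O : Fin 3 → ValuationSubring F} {ϖN : FN} {ϖ d : F}

/-- The uniformiser `ϖ` of `NF.Data` is a non-unit of the three vertical valuation rings. -/
theorem unif_mem_nonunits_of_data (D : NF.Data α β q PA PC (O 0) (O 1) (O 2) ϖN ϖ d) :
    ∀ i, ϖ ∈ (O i).nonunits := by
  have hq1 := D.hq.one_lt
  refine forall_fin3 D.ha.mem_nonunits ?_ D.hc.mem_nonunits
  rw [← D.hb.ord_pos_iff D.ha.ne_zero, D.ordb]
  have : (1 : ℤ) < (q : ℤ) := by exact_mod_cast hq1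
  omega

/-- `z ^ (q - 1) / ϖ` is integral at each vertical valuation ring, for `z` a non-unit. -/
theorem pow_div_unif_mem_of_data (D : NF.Data α β q PA PC (O 0) (O 1) (O 2) ϖN ϖ d) :
    ∀ i, ∀ z ∈ (O i).nonunits, z ^ (q - 1) / ϖ ∈ O i := by
  have hq1 := D.hq.one_lt
  have hqZ : (1 : ℤ) < (q : ℤ) := by exact_mod_cast hq1
  have hcast : ((q - 1 : ℕ) : ℤ) = (q : ℤ) - 1 := by
    rw [Nat.cast_sub hq1.le, Nat.cast_one]
  have key : ∀ (V : ValuationSubring F) (t : F) (ht : IsUnif V t),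
      ht.ord ϖ ≤ (q : ℤ) - 1 → ∀ z ∈ V.nonunits, z ^ (q - 1) / ϖ ∈ V := by
    intro V t ht hord z hz
    by_cases hz0 : z = 0
    · have h0 : q - 1 ≠ 0 := by omega
      rw [hz0, zero_pow h0, zero_div]
      exact V.zero_mem
    have hϖ0 : ϖ ≠ 0 := D.ha.ne_zero
    have hne : z ^ (q - 1) / ϖ ≠ 0 := div_ne_zero (pow_ne_zero _ hz0) hϖ0
    rw [← ht.ord_nonneg_iff hne, ht.ord_div (pow_ne_zero _ hz0) hϖ0, ht.ord_pow, hcast]
    have hpos : 0 < ht.ord z := (ht.ord_pos_iff hz0).mpr hz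
    nlinarith
  refine forall_fin3 (key _ _ D.ha ?_) (key _ _ D.hb ?_) (key _ _ D.hc ?_)
  · rw [D.ha.ord_self]; omega
  · rw [D.ordb]
  · rw [D.hc.ord_self]; omega

end Abstract

set_option maxHeartbeats 1000000 in
set_option synthInstance.maxHeartbeats 400000 in
/-- **`NewInertiaK0At` from the point packages at the two charts.** -/
theorem newInertiaK0At_of_points (K : IntermediateField ℚ Qb) (M' q p : ℕ) [NeZero M']
    [NeZero q] {W k : Type*} [CommRing W] [IsDomain W] [Field k] [IsAlgClosed k] [Algebra W ↥K]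
    [IsFractionRing W ↥K] [IsNoetherianRing W] [IsIntegrallyClosed W]
    [Algebra W (FNK ↥K (M' * q))] [Algebra W (FNK ↥K (M' * q * q))]
    [IsScalarTower W ↥K (FNK ↥K (M' * q))] [IsScalarTower W ↥K (FNK ↥K (M' * q * q))]
    (res : W →+* k) (hres : Function.Surjective res) (q₀ : W)
    (hker : ∀ w : W, res w = 0 → q₀ ∣ w) (hunit : ∀ w : W, res w ≠ 0 → IsUnit w)
    (hK0 : ∀ a : ↥K, a ≠ 0 → ∃ (n : ℤ) (w : W), IsUnit w ∧
      a = algebraMap W ↥K q₀ ^ n * algebraMap W ↥K w)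
    (hp : p.Prime) (hqp : q ≠ p) (p' : W) (hpp : (p : W) * p' = 1)
    (PA PC : ValuationSubring (FNK ↥K (M' * q)))
    (O : Fin 3 → ValuationSubring (FNK ↥K (M' * q * q)))
    (ϖ d : FNK ↥K (M' * q * q))
    (D : NF.Data (alphaStar ↥K M' q) (betaStar ↥K M' q) q PA PC (O 0) (O 1) (O 2)
      (algebraMap W (FNK ↥K (M' * q)) q₀) ϖ d)
    (hWA : ∀ w : W, algebraMap W (FNK ↥K (M' * q)) w ∈ PA)
    (hWC : ∀ w : W, algebraMap W (FNK ↥K (M' * q)) w ∈ PC)
    (x : FNK ↥K (M' * q * q)) (hx : (x : LaurentSeries ↥K).order ≠ 0)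
    (hRV : ∀ i, ∀ r ∈ chart W x, r ∈ O i) (hR'V : ∀ i, ∀ r ∈ chart W x⁻¹, r ∈ O i)
    (hmin : ∀ 𝔮 ∈ (Ideal.span {algebraMap W (chart W x) q₀}).minimalPrimes,
      ∃ i, 𝔮 = Local.centre (O i) (fun a : chart W x => hRV i a a.2))
    (hmin' : ∀ 𝔮 ∈ (Ideal.span {algebraMap W (chart W x⁻¹) q₀}).minimalPrimes,
      ∃ i, 𝔮 = Local.centre (O i) (fun a : chart W x⁻¹ => hR'V i a a.2))
    (hptR : ∀ (n : ℕ) (Q : Ideal (chart W x)), Q.IsMaximal → algebraMap W (chart W x) q₀ ∈ Q →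
      PointPkg ↥K res (p ^ n) q (alphaStar ↥K M' q) (betaStar ↥K M' q) PA PC O
        (LocalPair O (chart W x) Q (p ^ n)))
    (hptR' : ∀ (n : ℕ) (Q : Ideal (chart W x⁻¹)), Q.IsMaximal →
      algebraMap W (chart W x⁻¹) q₀ ∈ Q → (⟨x⁻¹, self_mem_chart x⁻¹⟩ : chart W x⁻¹) ∈ Q →
      PointPkg ↥K res (p ^ n) q (alphaStar ↥K M' q) (betaStar ↥K M' q) PA PC O
        (LocalPair O (chart W x⁻¹) Q (p ^ n))) :
    NormBc.NewInertiaK0At (M' * q) q p K := by
  have hq := D.hq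
  -- `ϖ` is the image of `q₀`
  have hϖ : algebraMap W (FNK ↥K (M' * q * q)) q₀ = ϖ := by
    rw [← D.αϖ, IsScalarTower.algebraMap_apply W ↥K (FNK ↥K (M' * q)),
      IsScalarTower.algebraMap_apply W ↥K (FNK ↥K (M' * q * q))]
    exact ((heckeAlphaBar ↥K (M' * q) q).commutes _).symm
  have hq₀ : q₀ ≠ 0 := by
    rintro rfl
    rw [map_zero] at hϖ
    exact D.ha.ne_zero hϖ.symm
  have hcop : ∀ n : ℕ, Nat.Coprime (p ^ n) q := fun n =>
    Nat.Coprime.pow_left n ((Nat.coprime_primes hp hq).mpr (Ne.symm hqp))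
  refine newInertiaK0At_of_chain K M' q p res hres q₀ hker hunit hK0 hcop PA PC O ϖ d D hWA hWC
    (chart W x) (chart W x⁻¹) (fun Q => (⟨x⁻¹, self_mem_chart x⁻¹⟩ : chart W x⁻¹) ∈ Q)
    hptR hptR' ?_ ?_
  · intro n f hf1 hlocal hlocal'
    have hmm : ((p ^ n : ℕ) : W) * p' ^ n = 1 := by
      rw [Nat.cast_pow, ← mul_pow, hpp, one_pow]
    exact exists_eq_const_mul_pow_of_charts_FNK (↥K) (M' * q * q) q₀ hq₀ (p ^ n) (p' ^ n) hmm x hx
      O hRV hR'V (fun i => hϖ ▸ unif_mem_nonunits_of_data D i) hmin hmin' (q - 1)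
      (fun i z hz => hϖ ▸ pow_div_unif_mem_of_data D i z hz) f hf1 hlocal hlocal'
  · intro n f _ hD
    obtain ⟨Dv, hDv⟩ := hD
    exact fun V hV t ht => Horizontal.dvd_ord_of_isDiv K (M' * q * q) V hV ht hDv

end Fermat.Agent.CAR.Core
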