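/-
CAR-39 (assembly, helper71): **the front end over the inertia field.**

`K0 = inertiaField A` for a valuation subring `A` of `ℚ̄` over the prime `q`, `W0 = A ∩ K0` its
discrete valuation ring, `resW0 : W0 → ResidueField A`, `q₀ = q`.

* `frontK0_*` : the front-end binders of `Core.chain` at `(W0 A, ResidueField A, K0 A)`
  (`hker`, `hunit`, `hK0` and its twin, invertibility of `p ≠ q`);
* `newInertiaK0At_W0_of_points` : `Core.newInertiaK0At_of_points` at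
  `(K, W, k, res, q₀) := (K0 A, W0 A, ResidueField A, resW0 A, q)`: what remains is the record
  `NF.Data`, the two chart rings and the point packages.
-/
import Mathlib
import Fermat.Agent.CAR.Core.Assemble
import Fermat.Agent.CAR.K0
import Fermat.Agent.Lib.FF.CharP.ModLInst

set_option autoImplicit false

namespace Fermat.Agent.CAR.Core

open AlgebraicCurve ModularCurve Fermat.Agent.ESJ Fermat.Agent.ESJ.Jac Fermat.Agent.BAD.Dict
open Fermat.Agent.ESJ.Dict.Bc Fermat.Agent.CAR.Formal Fermat.Agent.CAR.Formal.NF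
open Fermat.Agent.CAR.Formal.Descent Fermat.Agent.CAR.V3.RestrictNF
open Fermat.Agent.CAR.Glob.Charts Fermat.Agent.CAR.K0

local notation "Qb" => AlgebraicClosure ℚ

section Front

variable {q : ℕ} (hq : q.Prime) {A : ValuationSubring Qb} (hA : A.LiesOverPrime q)

include hq hA

/-- `hker` of `Core.chain` over `W0`. -/
theorem frontK0_hker : ∀ w : W0 A, resW0 A w = 0 → ((q : ℕ) : W0 A) ∣ w := by
  intro w hw
  have h1 : w ∈ IsLocalRing.maximalIdeal (W0 A) := by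
    rw [IsLocalRing.mem_maximalIdeal, mem_nonunits_iff]
    exact (resW0_eq_zero_iff A w).mp hw
  rw [maximalIdeal_W0_eq_span hq hA] at h1
  exact Ideal.mem_span_singleton.mp h1

omit hq hA in
/-- `hunit` of `Core.chain` over `W0`. -/
theorem frontK0_hunit : ∀ w : W0 A, resW0 A w ≠ 0 → IsUnit w := by
  intro w hw
  by_contra h
  exact hw (resW0_eq_zero_of_not_isUnit A w h)

/-- `hK0` of `Core.chain` over `W0`: `K0 = W0[1/q]`, with unit parts. -/
theorem frontK0_hK0 : ∀ a : K0 A, a ≠ 0 → ∃ (n : ℤ) (w : W0 A), IsUnit w ∧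
    a = algebraMap (W0 A) (K0 A) ((q : ℕ) : W0 A) ^ n * algebraMap (W0 A) (K0 A) w := by
  intro a ha
  obtain ⟨n, u, hu, hu', rfl⟩ := exists_pow_mul_unit hq hA a ha
  have hu0 : u ≠ 0 := by
    rintro rfl
    exact ha (mul_zero _)
  refine ⟨n, ⟨u, hu⟩, ?_, ?_⟩
  · refine IsUnit.of_mul_eq_one (⟨u⁻¹, hu'⟩ : W0 A) ?_
    exact Subtype.ext (mul_inv_cancel₀ hu0)
  · rw [map_natCast]
    rfl

/-- The twin of `hK0` used by the point packages: every element of `K0` becomes integral after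
multiplication by a power of `q`. -/
theorem frontK0_hK0' : ∀ a : K0 A, ∃ (w : W0 A) (n : ℕ),
    a * algebraMap (W0 A) (K0 A) ((q : ℕ) : W0 A) ^ n = algebraMap (W0 A) (K0 A) w := by
  intro a
  by_cases ha : a = 0
  · exact ⟨0, 0, by rw [ha, zero_mul, map_zero]⟩
  obtain ⟨n, w, -, hw⟩ := frontK0_hK0 hq hA a ha
  have hq0 : algebraMap (W0 A) (K0 A) ((q : ℕ) : W0 A) ≠ 0 := by
    rw [map_natCast]
    exact Nat.cast_ne_zero.mpr hq.ne_zero
  rcases le_or_gt 0 n with hn | hn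
  · obtain ⟨N, rfl⟩ := Int.eq_ofNat_of_zero_le hn
    refine ⟨((q : ℕ) : W0 A) ^ N * w, 0, ?_⟩
    rw [pow_zero, mul_one, hw, zpow_natCast, map_mul, map_pow]
  · obtain ⟨N, hN⟩ := Int.eq_ofNat_of_zero_le (neg_nonneg.mpr hn.le)
    refine ⟨w, N, ?_⟩
    have hn' : n = -(N : ℤ) := by omega
    rw [hw, hn', zpow_neg, zpow_natCast]
    field_simp

/-- A prime `p ≠ q` is invertible in `W0`. -/
theorem frontK0_inv {p : ℕ} (hp : p.Prime) (hqp : q ≠ p) :
    ∃ p' : W0 A, ((p : ℕ) : W0 A) * p' = 1 := by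
  have hndvd : ¬ q ∣ p := fun h => hqp ((Nat.prime_dvd_prime_iff_eq hq hp).mp h)
  have h1 : resW0 A ((p : ℕ) : W0 A) ≠ 0 := by
    rw [map_natCast]
    have : CharP (IsLocalRing.ResidueField A) q :=
      (CharP.charP_iff_prime_eq_zero hq).mpr (resW0_natCast_eq_zero hq hA)
    exact fun h0 => hndvd ((CharP.cast_eq_zero_iff (IsLocalRing.ResidueField A) q p).mp h0)
  obtain ⟨u, hu⟩ := frontK0_hunit (A := A) _ h1
  exact ⟨((u⁻¹ : (W0 A)ˣ) : W0 A), by rw [← hu]; exact u.mul_inv⟩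

end Front

set_option maxHeartbeats 1000000 in
set_option synthInstance.maxHeartbeats 400000 in
/-- **`NewInertiaK0At` over the inertia field from the point packages at the two charts.** -/
theorem newInertiaK0At_W0_of_points {q : ℕ} (hq : q.Prime) (A : ValuationSubring Qb)
    (hA : A.LiesOverPrime q) (M' p : ℕ) [NeZero M'] [NeZero q] (hp : p.Prime) (hqp : q ≠ p)
    [Algebra ↥(W0 A) (FNK ↥(K0 A) (M' * q))] [Algebra ↥(W0 A) (FNK ↥(K0 A) (M' * q * q))]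
    [IsScalarTower ↥(W0 A) ↥(K0 A) (FNK ↥(K0 A) (M' * q))]
    [IsScalarTower ↥(W0 A) ↥(K0 A) (FNK ↥(K0 A) (M' * q * q))]
    (PA PC : ValuationSubring (FNK ↥(K0 A) (M' * q)))
    (O : Fin 3 → ValuationSubring (FNK ↥(K0 A) (M' * q * q)))
    (ϖ d : FNK ↥(K0 A) (M' * q * q))
    (D : NF.Data (alphaStar ↥(K0 A) M' q) (betaStar ↥(K0 A) M' q) q PA PC (O 0) (O 1) (O 2)
      ((q : ℕ) : FNK ↥(K0 A) (M' * q)) ϖ d)
    (hWA : ∀ w : W0 A, algebraMap (W0 A) (FNK ↥(K0 A) (M' * q)) w ∈ PA)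
    (hWC : ∀ w : W0 A, algebraMap (W0 A) (FNK ↥(K0 A) (M' * q)) w ∈ PC)
    (x : FNK ↥(K0 A) (M' * q * q)) (hx : (x : LaurentSeries ↥(K0 A)).order ≠ 0)
    (hRV : ∀ i, ∀ r ∈ chart ↥(W0 A) x, r ∈ O i)
    (hR'V : ∀ i, ∀ r ∈ chart ↥(W0 A) x⁻¹, r ∈ O i)
    (hmin : ∀ 𝔮 ∈ (Ideal.span {algebraMap (W0 A) (chart ↥(W0 A) x)
        ((q : ℕ) : W0 A)}).minimalPrimes,
      ∃ i, 𝔮 = Local.centre (O i) (fun a : chart ↥(W0 A) x => hRV i a a.2))
    (hmin' : ∀ 𝔮 ∈ (Ideal.span {algebraMap (W0 A) (chart ↥(W0 A) x⁻¹)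
        ((q : ℕ) : W0 A)}).minimalPrimes,
      ∃ i, 𝔮 = Local.centre (O i) (fun a : chart ↥(W0 A) x⁻¹ => hR'V i a a.2))
    (hptR : ∀ (n : ℕ) (Q : Ideal (chart ↥(W0 A) x)), Q.IsMaximal →
      algebraMap (W0 A) (chart ↥(W0 A) x) ((q : ℕ) : W0 A) ∈ Q →
      PointPkg ↥(K0 A) (resW0 A) (p ^ n) q (alphaStar ↥(K0 A) M' q) (betaStar ↥(K0 A) M' q)
        PA PC O (LocalPair O (chart ↥(W0 A) x) Q (p ^ n)))
    (hptR' : ∀ (n : ℕ) (Q : Ideal (chart ↥(W0 A) x⁻¹)), Q.IsMaximal →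
      algebraMap (W0 A) (chart ↥(W0 A) x⁻¹) ((q : ℕ) : W0 A) ∈ Q →
      (⟨x⁻¹, self_mem_chart x⁻¹⟩ : chart ↥(W0 A) x⁻¹) ∈ Q →
      PointPkg ↥(K0 A) (resW0 A) (p ^ n) q (alphaStar ↥(K0 A) M' q) (betaStar ↥(K0 A) M' q)
        PA PC O (LocalPair O (chart ↥(W0 A) x⁻¹) Q (p ^ n))) :
    NormBc.NewInertiaK0At (M' * q) q p (K0.inertiaField A) := by
  have := Fermat.Agent.Lib.FF.CharP.isAlgClosed_residueField A
  have := isDiscreteValuationRing_W0 hq hA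
  obtain ⟨p', hpp⟩ := frontK0_inv hq hA hp hqp
  have hD : NF.Data (alphaStar ↥(K0 A) M' q) (betaStar ↥(K0 A) M' q) q PA PC (O 0) (O 1) (O 2)
      (algebraMap (W0 A) (FNK ↥(K0 A) (M' * q)) ((q : ℕ) : W0 A)) ϖ d := by
    rw [map_natCast]
    exact D
  exact newInertiaK0At_of_points (K0 A) M' q p (resW0 A) (resW0_surjective hq hA)
    ((q : ℕ) : W0 A) (frontK0_hker hq hA) frontK0_hunit (frontK0_hK0 hq hA) hp hqp p' hpp
    PA PC O ϖ d hD hWA hWC x hx hRV hR'V hmin hmin' hptR hptR'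

end Fermat.Agent.CAR.Core
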