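/-
CAR-39 (assembly, helper71): **the plug at the concrete objects.**

`A` a valuation subring of `ℚ̄` over the prime `q`, `K0` its inertia field, `W0 = A ∩ K0`,
`q ∤ M'`, `hB = badSetup_W0 hq hA M' hqM`, Atkin–Lehner involutions `W` (level `M' q`), `w`
(level `M' q²`), `ζ` a primitive `q`-th root of unity.

* `O3` : the three vertical valuation rings `![OInf3 hB, OMid …, OZero3 hB w]` of `K0 · F_{M'q²}`;
* `xB` : the chart function `CuspQuot.J0 * CuspQuot.J2` (series `J(q^{M'}) J(q^{M'q²})`);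
* `newInertiaK0At_of_pointPkgs` : `Core.newInertiaK0At_W0_of_points` with the record `NF.Data`
  (`MidAll.nfDataK0`), `hWA`, `hWC`, `hx`, `hRV`, `hR'V`, `hmin`, `hmin'` discharged
  (`HMin.*_K0` and the count `Count.family3_K0`): what remains is the two families of point
  packages `hptR`, `hptR'`;
* `core_of_pointPkgs` : the closing statement
  `∀ M' q p …, NormBc.NewInertiaK0At (M' * q) q p (K0.inertiaField A)` (the unfolded
  `Final.Core 12 11`) from the point packages, given for every choice of `ζ`, `W`, `w` and of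
  the `W0`-algebra structures.
-/
import Mathlib
import Fermat.Agent.CAR.Core.FrontK0
import Fermat.Agent.CAR.V3.MidAll
import Fermat.Agent.CAR.Inst.HMinInst

set_option autoImplicit false
set_option linter.unusedSectionVars false
set_option linter.style.haveILetI false

noncomputable section

namespace Fermat.Agent.CAR.Core

open AlgebraicCurve ModularCurve Fermat.Agent.ESJ Fermat.Agent.ESJ.Jac Fermat.Agent.BAD.Dict
open Fermat.Agent.ESJ.Dict.Bc Fermat.Agent.CAR.Formal Fermat.Agent.CAR.Formal.NF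
open Fermat.Agent.CAR.Formal.Descent Fermat.Agent.CAR.V3.RestrictNF
open Fermat.Agent.CAR.Glob.Charts Fermat.Agent.CAR.K0 Fermat.Agent.CAR.V3
open Fermat.Agent.CAR.V3.MidRing Fermat.Agent.CAR.V3.MidRestrict Fermat.Agent.BAD.TwoVal
open Fermat.Agent.ESJ.Cong.LevelGen Fermat.Agent.Lib.Red

local notation "Qb" => AlgebraicClosure ℚ

section Objects

variable {q : ℕ} (hq : q.Prime) (A : ValuationSubring Qb) (hA : A.LiesOverPrime q)
  {ζ : Qb} (hζ : IsPrimitiveRoot ζ q) (M' : ℕ) [NeZero M'] [NeZero q] (hqM : ¬ q ∣ M')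

/-- **The three vertical valuation rings** of `K0 · F_{M'q²}`: `O_∞`, `O_mid`, `O_0`. -/
abbrev O3 (w : ALAut (inertiaField A) (M' * q) q) :
    Fin 3 → ValuationSubring ↥(FK (inertiaField A) (M' * q * q)) :=
  ![OInf3 (badSetup_W0 hq hA M' hqM), OMid hq A hA hζ M' hqM (IsLocalRing.residue A),
    OZero3 (badSetup_W0 hq hA M' hqM) w]

/-- **The chart function** `x = J_0 J_2` (series `J(q^{M'}) · J(q^{M' q²})`). -/
abbrev xB (A : ValuationSubring Qb) (M' q : ℕ) [NeZero M'] [NeZero q] :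
    ↥(FK (inertiaField A) (M' * q * q)) :=
  Fermat.Agent.CAR.Glob.CuspQuot.J0 (q := q) ↥(K0 A) M' *
    Fermat.Agent.CAR.Glob.CuspQuot.J2 (q := q) ↥(K0 A) M'

variable {w : ALAut (inertiaField A) (M' * q) q}

/-- The three rings lie above the Gauss valuation ring of level `M'` along `π_0^*`. -/
theorem O3_above (hw : IsAL3 M' q w) :
    ∀ i, ∀ y : ↥(laurentBaseChange ↥(K0 A) (modularFunctionFieldFull M')),
      piStar0 ↥(K0 A) M' q y ∈ O3 hq A hA hζ M' hqM w i ↔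
        y ∈ Ow (W0 A) (resW0 A) M' (badSetup_W0 hq hA M' hqM).hMk := by
  letI := Count.alg0 ↥(K0 A) M' q
  exact fun i y => (Count.family3_K0 hq A hA hζ M' hqM hw).above i y

/-- The three rings are pairwise distinct. -/
theorem O3_injective (hw : IsAL3 M' q w) : Function.Injective (O3 hq A hA hζ M' hqM w) := by
  letI := Count.alg0 ↥(K0 A) M' q
  exact (Count.family3_K0 hq A hA hζ M' hqM hw).inj

/-- The three rings are all the valuation rings above the Gauss valuation ring of level `M'`. -/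
theorem O3_exhaust (hw : IsAL3 M' q w)
    (V' : ValuationSubring ↥(laurentBaseChange ↥(K0 A) (modularFunctionFieldFull (M' * q * q))))
    (hV' : ∀ y : ↥(laurentBaseChange ↥(K0 A) (modularFunctionFieldFull M')),
      piStar0 ↥(K0 A) M' q y ∈ V' ↔
        y ∈ Ow (W0 A) (resW0 A) M' (badSetup_W0 hq hA M' hqM).hMk) :
    ∃ i, V' = O3 hq A hA hζ M' hqM w i := by
  rcases Count.eq_of_isAbove3_K0 hq A hA hζ M' hqM hw V' hV' with h | h | h
  · exact ⟨0, h⟩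
  · exact ⟨1, h⟩
  · exact ⟨2, h⟩

end Objects

set_option maxHeartbeats 1000000 in
set_option synthInstance.maxHeartbeats 400000 in
/-- **`NewInertiaK0At` over the inertia field from the point packages at the two charts of the
concrete objects.** -/
theorem newInertiaK0At_of_pointPkgs {q : ℕ} (hq : q.Prime) (A : ValuationSubring Qb)
    (hA : A.LiesOverPrime q) {ζ : Qb} (hζ : IsPrimitiveRoot ζ q) (M' p : ℕ) [NeZero M']
    [NeZero q] (hqM : ¬ q ∣ M') (hp : p.Prime) (hqp : q ≠ p)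
    [Algebra ↥(W0 A) (FNK ↥(K0 A) (M' * q))] [Algebra ↥(W0 A) (FNK ↥(K0 A) (M' * q * q))]
    [IsScalarTower ↥(W0 A) ↥(K0 A) (FNK ↥(K0 A) (M' * q))]
    [IsScalarTower ↥(W0 A) ↥(K0 A) (FNK ↥(K0 A) (M' * q * q))]
    {W : ALAut (inertiaField A) M' q} (hW : IsAL M' q W)
    {w : ALAut (inertiaField A) (M' * q) q} (hw : IsAL3 M' q w)
    (hptR : ∀ (n : ℕ) (Q : Ideal (chart ↥(W0 A) (xB A M' q))), Q.IsMaximal →
      algebraMap (W0 A) (chart ↥(W0 A) (xB A M' q)) ((q : ℕ) : W0 A) ∈ Q →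
      PointPkg ↥(K0 A) (resW0 A) (p ^ n) q (alphaStar ↥(K0 A) M' q) (betaStar ↥(K0 A) M' q)
        (OInf (badSetup_W0 hq hA M' hqM)) (OZero (badSetup_W0 hq hA M' hqM) W)
        (O3 hq A hA hζ M' hqM w)
        (LocalPair (O3 hq A hA hζ M' hqM w) (chart ↥(W0 A) (xB A M' q)) Q (p ^ n)))
    (hptR' : ∀ (n : ℕ) (Q : Ideal (chart ↥(W0 A) (xB A M' q)⁻¹)), Q.IsMaximal →
      algebraMap (W0 A) (chart ↥(W0 A) (xB A M' q)⁻¹) ((q : ℕ) : W0 A) ∈ Q →
      (⟨(xB A M' q)⁻¹, self_mem_chart (xB A M' q)⁻¹⟩ : chart ↥(W0 A) (xB A M' q)⁻¹) ∈ Q →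
      PointPkg ↥(K0 A) (resW0 A) (p ^ n) q (alphaStar ↥(K0 A) M' q) (betaStar ↥(K0 A) M' q)
        (OInf (badSetup_W0 hq hA M' hqM)) (OZero (badSetup_W0 hq hA M' hqM) W)
        (O3 hq A hA hζ M' hqM w)
        (LocalPair (O3 hq A hA hζ M' hqM w) (chart ↥(W0 A) (xB A M' q)⁻¹) Q (p ^ n))) :
    NormBc.NewInertiaK0At (M' * q) q p (K0.inertiaField A) := by
  have hab := O3_above hq A hA hζ M' hqM hw
  have hinj := O3_injective hq A hA hζ M' hqM hw
  have hex := O3_exhaust hq A hA hζ M' hqM hw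
  have hRV : ∀ i, ∀ r ∈ chart ↥(W0 A) (xB A M' q), r ∈ O3 hq A hA hζ M' hqM w i :=
    fun i r hr => Fermat.Agent.CAR.Inst.HMin.mem_of_mem_chart_K0 hq hA M' hqM (hab i) hr
  have hR'V : ∀ i, ∀ r ∈ chart ↥(W0 A) (xB A M' q)⁻¹, r ∈ O3 hq A hA hζ M' hqM w i :=
    fun i r hr => Fermat.Agent.CAR.Inst.HMin.mem_of_mem_chart_inv_K0 hq hA M' hqM (hab i) hr
  have hWA : ∀ a : W0 A, algebraMap (W0 A) (FNK ↥(K0 A) (M' * q)) a ∈
      OInf (badSetup_W0 hq hA M' hqM) := by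
    intro a
    rw [IsScalarTower.algebraMap_apply (W0 A) (K0 A) (FNK ↥(K0 A) (M' * q))]
    exact (algebraMap_mem_OInf_iff (badSetup_W0 hq hA M' hqM) _).mpr a.2
  have hWC : ∀ a : W0 A, algebraMap (W0 A) (FNK ↥(K0 A) (M' * q)) a ∈
      OZero (badSetup_W0 hq hA M' hqM) W := by
    intro a
    rw [IsScalarTower.algebraMap_apply (W0 A) (K0 A) (FNK ↥(K0 A) (M' * q))]
    exact (algebraMap_mem_OZero_iff (badSetup_W0 hq hA M' hqM) _).mpr a.2
  exact newInertiaK0At_W0_of_points hq A hA M' p hp hqp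
    (OInf (badSetup_W0 hq hA M' hqM)) (OZero (badSetup_W0 hq hA M' hqM) W)
    (O3 hq A hA hζ M' hqM w) _ (dMid A M' q)
    (MidAll.nfDataK0 hq A hA hζ M' hqM hW hw) hWA hWC (xB A M' q)
    (Fermat.Agent.CAR.Inst.HMin.order_J0_mul_J2_ne_zero (L := ↥(K0 A)) (M' := M') (q := q))
    hRV hR'V
    (Fermat.Agent.CAR.Inst.HMin.hmin_chart_K0 hq hA M' hqM hinj hab hex 0 hRV)
    (Fermat.Agent.CAR.Inst.HMin.hmin_chart_inv_K0 hq hA M' hqM hinj hab hex 0 hR'V)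
    hptR hptR'

set_option maxHeartbeats 1000000 in
set_option synthInstance.maxHeartbeats 400000 in
/-- **The core statement** (the unfolded `Final.Core 12 11`) from the point packages at the two
charts, given for every choice of the primitive root `ζ`, of the Atkin–Lehner involutions `W`,
`w` and of the `W0`-algebra structures on `K0 · F_{M'q}`, `K0 · F_{M'q²}`. -/
theorem core_of_pointPkgs
    (hpt : ∀ {q : ℕ} (hq : q.Prime) (A : ValuationSubring Qb) (hA : A.LiesOverPrime q)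
      {ζ : Qb} (hζ : IsPrimitiveRoot ζ q) (M' p : ℕ) [NeZero M'] [NeZero q] (hqM : ¬ q ∣ M')
      (_ : p.Prime) (_ : q ≠ p)
      (_ : ∃ r : ℕ, r.Prime ∧ r ≡ 11 [MOD 12] ∧ r ∣ M' ∧ r ≠ q ∧ r ≠ p)
      (_ : q = 2 → 3 ∣ M') (_ : q = 3 → 2 ∣ M')
      [Algebra ↥(W0 A) (FNK ↥(K0 A) (M' * q))] [Algebra ↥(W0 A) (FNK ↥(K0 A) (M' * q * q))]
      [IsScalarTower ↥(W0 A) ↥(K0 A) (FNK ↥(K0 A) (M' * q))]
      [IsScalarTower ↥(W0 A) ↥(K0 A) (FNK ↥(K0 A) (M' * q * q))]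
      {W : ALAut (inertiaField A) M' q} (_ : IsAL M' q W)
      {w : ALAut (inertiaField A) (M' * q) q} (_ : IsAL3 M' q w),
      (∀ (n : ℕ) (Q : Ideal (chart ↥(W0 A) (xB A M' q))), Q.IsMaximal →
        algebraMap (W0 A) (chart ↥(W0 A) (xB A M' q)) ((q : ℕ) : W0 A) ∈ Q →
        PointPkg ↥(K0 A) (resW0 A) (p ^ n) q (alphaStar ↥(K0 A) M' q) (betaStar ↥(K0 A) M' q)
          (OInf (badSetup_W0 hq hA M' hqM)) (OZero (badSetup_W0 hq hA M' hqM) W)
          (O3 hq A hA hζ M' hqM w)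
          (LocalPair (O3 hq A hA hζ M' hqM w) (chart ↥(W0 A) (xB A M' q)) Q (p ^ n))) ∧
      (∀ (n : ℕ) (Q : Ideal (chart ↥(W0 A) (xB A M' q)⁻¹)), Q.IsMaximal →
        algebraMap (W0 A) (chart ↥(W0 A) (xB A M' q)⁻¹) ((q : ℕ) : W0 A) ∈ Q →
        (⟨(xB A M' q)⁻¹, self_mem_chart (xB A M' q)⁻¹⟩ : chart ↥(W0 A) (xB A M' q)⁻¹) ∈ Q →
        PointPkg ↥(K0 A) (resW0 A) (p ^ n) q (alphaStar ↥(K0 A) M' q) (betaStar ↥(K0 A) M' q)
          (OInf (badSetup_W0 hq hA M' hqM)) (OZero (badSetup_W0 hq hA M' hqM) W)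
          (O3 hq A hA hζ M' hqM w)
          (LocalPair (O3 hq A hA hζ M' hqM w) (chart ↥(W0 A) (xB A M' q)⁻¹) Q (p ^ n)))) :
    ∀ (M' q p : ℕ) [NeZero M'] [NeZero q], p.Prime → q.Prime → q ≠ p → ¬ q ∣ M' →
      (∃ r : ℕ, r.Prime ∧ r ≡ 11 [MOD 12] ∧ r ∣ M' ∧ r ≠ q ∧ r ≠ p) →
      (q = 2 → 3 ∣ M') → (q = 3 → 2 ∣ M') →
      ∀ A : ValuationSubring Qb, A.LiesOverPrime q →
        NormBc.NewInertiaK0At (M' * q) q p (K0.inertiaField A) := by
  intro M' q p _ _ hp hq hqp hqM hr h2 h3 A hA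
  haveI : NeZero ((q : ℕ) : Qb) := ⟨Nat.cast_ne_zero.mpr hq.ne_zero⟩
  obtain ⟨ζ, hζ⟩ := HasEnoughRootsOfUnity.exists_primitiveRoot Qb q
  obtain ⟨W, hW⟩ := AL3.exists_isAL_of_charZero (L := ↥(inertiaField A)) M' q hq hqM
  obtain ⟨w, hw⟩ := exists_isAL3 (L := ↥(inertiaField A)) M' q hq hqM
  letI i1 : Algebra ↥(W0 A) (FNK ↥(K0 A) (M' * q)) :=
    ((algebraMap ↥(K0 A) (FNK ↥(K0 A) (M' * q))).comp (algebraMap ↥(W0 A) ↥(K0 A))).toAlgebra
  letI i2 : Algebra ↥(W0 A) (FNK ↥(K0 A) (M' * q * q)) :=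
    ((algebraMap ↥(K0 A) (FNK ↥(K0 A) (M' * q * q))).comp
      (algebraMap ↥(W0 A) ↥(K0 A))).toAlgebra
  haveI t1 : IsScalarTower ↥(W0 A) ↥(K0 A) (FNK ↥(K0 A) (M' * q)) :=
    IsScalarTower.of_algebraMap_eq (fun _ => rfl)
  haveI t2 : IsScalarTower ↥(W0 A) ↥(K0 A) (FNK ↥(K0 A) (M' * q * q)) :=
    IsScalarTower.of_algebraMap_eq (fun _ => rfl)
  obtain ⟨h1, h2'⟩ := hpt hq A hA hζ M' p hqM hp hqp hr h2 h3 hW hw
  exact newInertiaK0At_of_pointPkgs hq A hA hζ M' p hqM hp hqp hW hw h1 h2'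

end Fermat.Agent.CAR.Core

end
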