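/-
CAR-18 (assembly, helper71): **the point package from the local theory** (CAR-13).

`pointPkg_of_localStart` : at a prime `Q` of a chart ring `R` (a subalgebra of `F` with fraction
field `F`), the data of helper75's `LocalStart` — factorial local ring (`hUFM`), the vertical
primes through `Q` are centres of the `O i` (`hmin`), the branch places `Vs i` (`hbr`), LIFT
(`hlift`) — together with either "one branch through `Q`" or the node relation `NodeRel` at a
triple point, give the abstract `PointPkg` consumed by `Core.chain`.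

`hhor_of_horDiv` : horizontal divisibility `HorDiv K0 m f` gives the hypothesis (hor) of
`LStart.exists_factor` (every discrete valuation ring of `F` containing `W` and `q₀⁻¹` contains
`K0 = W[1/q₀]`).
-/
import Mathlib
import Fermat.Agent.CAR.Core.Chain
import Fermat.Agent.CAR.Glue.LocalStart

set_option autoImplicit false

namespace Fermat.Agent.CAR.Core

open Fermat.Agent.CAR.Formal Fermat.Agent.CAR.Formal.NF Fermat.Agent.CAR.Local
  Fermat.Agent.CAR.Glue IsLocalRing

section

variable {W k K0 FN F : Type*} [CommRing W] [Field k] [Field K0] [Field FN] [Field F]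
  [Algebra W K0] [Algebra K0 FN] [Algebra K0 F] [Algebra W FN] [Algebra W F]
  [IsScalarTower W K0 FN] [IsScalarTower W K0 F]

/-- **(hor) from `HorDiv`.**  If `K0 = W[1/q₀]`, a discrete valuation ring `V` of `F` containing
the image of `W` and `q₀⁻¹` contains `K0`; so `m ∣ ord_V f` and `f` is an `m`-th power times a
unit of `V`. -/
theorem hhor_of_horDiv (q₀ : W) (hq0 : algebraMap W K0 q₀ ≠ 0)
    (hK0 : ∀ a : K0, ∃ (w : W) (n : ℕ), a * algebraMap W K0 q₀ ^ n = algebraMap W K0 w)
    {m : ℕ} {f : F} (hf0 : f ≠ 0) (hf : HorDiv K0 m f) (V : ValuationSubring F) (t : F)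
    (ht : IsUnif V t) (hWV : ∀ w : W, algebraMap W F w ∈ V)
    (hqV : (algebraMap W F q₀)⁻¹ ∈ V) :
    ∃ g : F, g ≠ 0 ∧ g ^ m * f ∈ V ∧ (g ^ m * f)⁻¹ ∈ V := by
  have hKV : ∀ a : K0, algebraMap K0 F a ∈ V := by
    intro a
    obtain ⟨w, n, hw⟩ := hK0 a
    have h1 : algebraMap K0 F a * algebraMap W F q₀ ^ n = algebraMap W F w := by
      rw [IsScalarTower.algebraMap_apply W K0 F, IsScalarTower.algebraMap_apply W K0 F,
        ← map_pow, ← map_mul, hw]
    have h2 : algebraMap W F q₀ ≠ 0 := by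
      rw [IsScalarTower.algebraMap_apply W K0 F]
      exact (map_ne_zero _).mpr hq0
    have h3 : algebraMap K0 F a = algebraMap W F w * (algebraMap W F q₀)⁻¹ ^ n := by
      rw [← h1, inv_pow]
      field_simp
    rw [h3]
    exact V.mul_mem _ _ (hWV w) (pow_mem hqV n)
  obtain ⟨e, he⟩ := hf V hKV t ht
  obtain ⟨u, hu, hu', hu0, hfu⟩ := ht.exists_unit_eq hf0
  have h1 : (t ^ (-e)) ^ m * t ^ ht.ord f = 1 := by
    rw [he, ← zpow_natCast (t ^ (-e)) m, ← zpow_mul, ← zpow_add₀ ht.ne_zero]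
    have h2 : -e * (m : ℤ) + (m : ℤ) * e = 0 := by ring
    rw [h2, zpow_zero]
  have key : (t ^ (-e)) ^ m * f = u := by
    calc (t ^ (-e)) ^ m * f = (t ^ (-e)) ^ m * (t ^ ht.ord f * u) := by rw [← hfu]
      _ = ((t ^ (-e)) ^ m * t ^ ht.ord f) * u := by ring
      _ = u := by rw [h1, one_mul]
  refine ⟨t ^ (-e), zpow_ne_zero _ ht.ne_zero, ?_, ?_⟩
  · rw [key]
    exact hu
  · rw [key]
    exact hu'

/-- **The node relation at a triple point** (the right disjunct of `PointPkg`): the values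
`a, b, c ∈ W` of `h⁻¹` on the three branches `Vc 0, Vc 1, Vc 2` (`= inf, mid, zero`) satisfy
`γ_A a b^(q-1) = γ_C c^q` (norm along `α`) and `γ_A a^q = γ_C b^(q-1) c` (norm along `β`). -/
def NodeRel (res : W →+* k) (m q : ℕ) (α β : FN →+* F) (PA PC : ValuationSubring FN)
    (O Vc : Fin 3 → ValuationSubring F) (Rp : Subring F) : Prop :=
  ∀ f u h : F, (∀ i, f - 1 ∈ (O i).nonunits) → u ∈ Rp → u⁻¹ ∈ Rp → f = u * h ^ m →
    ∃ a b c : W, h⁻¹ - algebraMap W F a ∈ (Vc 0).nonunits ∧
      h⁻¹ - algebraMap W F b ∈ (Vc 1).nonunits ∧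
      h⁻¹ - algebraMap W F c ∈ (Vc 2).nonunits ∧
      (∀ (g : FN) (c₀ wA wC : W), IsUnit c₀ → normOf α f = algebraMap W FN c₀ * g ^ m →
        g - algebraMap W FN wA ∈ PA.nonunits → g - algebraMap W FN wC ∈ PC.nonunits →
        res (wA * a * b ^ (q - 1)) = res (wC * c ^ q)) ∧
      (∀ (g : FN) (c₀ wA wC : W), IsUnit c₀ → normOf β f = algebraMap W FN c₀ * g ^ m →
        g - algebraMap W FN wA ∈ PA.nonunits → g - algebraMap W FN wC ∈ PC.nonunits →
        res (wA * a ^ q) = res (wC * b ^ (q - 1) * c))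

omit [Algebra K0 FN] [IsScalarTower W K0 FN] in
/-- **The point package at a prime `Q` of a chart ring**, from the data of `LocalStart`. -/
theorem pointPkg_of_localStart (res : W →+* k) (m q : ℕ) (α β : FN →+* F)
    (PA PC : ValuationSubring FN) (O : Fin 3 → ValuationSubring F)
    (R : Subalgebra W F) [IsFractionRing R F]
    (hRO : ∀ i (a : R), algebraMap R F a ∈ O i)
    (q₀ : W) (hq0 : algebraMap W K0 q₀ ≠ 0)
    (hK0 : ∀ a : K0, ∃ (w : W) (n : ℕ), a * algebraMap W K0 q₀ ^ n = algebraMap W K0 w)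
    (Q : Ideal R) [Q.IsPrime] (hmQ : (m : R) ∉ Q)
    (hUFM : UniqueFactorizationMonoid (pointRing F Q))
    (hmin : ∀ 𝔮 ∈ (Ideal.span {algebraMap W R q₀}).minimalPrimes, 𝔮 ≤ Q →
      ∃ i, 𝔮 = centre (O i) (hRO i))
    {κ : Fin 3 → Type*} [∀ i, Field (κ i)] (red : ∀ i, O i →+* κ i)
    (hred : ∀ i, ∀ x : O i, red i x = 0 ↔ x ∈ maximalIdeal (O i))
    (Vs : ∀ i, ValuationSubring (κ i))
    (hbr : ∀ i, centre (O i) (hRO i) ≤ Q →
      ∃ hA : ∀ a : R, algebraMap R F a ∈ compositeSubring (O i) (red i) (hred i) (Vs i),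
        pointIdeal (O i) (red i) (hred i) (Vs i) hA = Q)
    (hlift : ∀ i, centre (O i) (hRO i) ≤ Q → ∀ c ∈ Vs i, ∃ a b : R,
      redOn (O i) (red i) (hRO i) b ∉ (Vs i).nonunits ∧
      redOn (O i) (red i) (hRO i) a = c * redOn (O i) (red i) (hRO i) b)
    (hT : ∃ i, centre (O i) (hRO i) ≤ Q)
    (hnode : (∃ i₀, centre (O i₀) (hRO i₀) ≤ Q ∧ ∀ i, centre (O i) (hRO i) ≤ Q → i = i₀) ∨
      ((∀ i, centre (O i) (hRO i) ≤ Q) ∧
        NodeRel res m q α β PA PC O
          (fun i => compositeSubring (O i) (red i) (hred i) (Vs i))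
          (pointRing F Q).toSubring)) :
    PointPkg K0 res m q α β PA PC O (LocalPair O R Q m) := by
  have hm0 : m ≠ 0 := by
    rintro rfl
    exact hmQ (by rw [Nat.cast_zero]; exact Q.zero_mem)
  have hqF : algebraMap W F q₀ ≠ 0 := by
    rw [IsScalarTower.algebraMap_apply W K0 F]
    exact (map_ne_zero _).mpr hq0
  have hqR : algebraMap W R q₀ ≠ 0 := by
    intro h0
    apply hqF
    have h1 : ((algebraMap W R q₀ : R) : F) = 0 := by rw [h0]; rfl
    exact h1
  refine ⟨fun i => centre (O i) (hRO i) ≤ Q,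
    fun i => compositeSubring (O i) (red i) (hred i) (Vs i), (pointRing F Q).toSubring,
    ?_, ?_, ?_, ?_, ?_⟩
  · -- constants lie in the local ring
    intro w
    exact (pointRing F Q).algebraMap_mem (algebraMap W R w)
  · -- the branch rings
    intro i hi
    obtain ⟨hA, hP⟩ := hbr i hi
    exact ⟨fun r hr => LStart.mem_composite_of_mem_pointRing (O i) (red i) (hred i) (Vs i) hA Q
      hP hr, compositeSubring_le (O i) (red i) (hred i) (Vs i)⟩
  · -- factorisation
    intro f hf0 hf hhor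
    refine LStart.exists_factor O hRO Q hUFM hqR hmin m f hf0
      (fun i _ => (pu_unit (O i) (hf i)).2) ?_
    intro V t ht hRV hqV
    exact hhor_of_horDiv q₀ hq0 hK0 hf0 hhor V t ht (fun w => hRV (algebraMap W R w)) hqV
  · -- the local pair
    intro f u h c hf hu hu' hfuh hc hglue
    obtain ⟨g, hg, s, ⟨a, ha⟩, -, hsg⟩ := LStart.exists_local_pair O hRO Q red hred Vs hbr hlift
      hT m hmQ f hf u h hu hu' hfuh c hc hglue
    refine ⟨g, hg, s, ?_, fun i => hsg i⟩
    rw [ha]
    exact a.2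
  · rcases hnode with ⟨i₀, hi₀, hone⟩ | ⟨hall, hrel⟩
    · left
      intro f u h hf hu hu' hfuh
      exact LStart.exists_glue_of_unique_branch O hRO Q red hred Vs hbr hlift i₀ hi₀ hone m hm0
        f (hf i₀) u h hu hu' hfuh
    · right
      exact ⟨hall, hrel⟩

end

end Fermat.Agent.CAR.Core
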