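/-
CAR-18 (assembly), second seat (helper75): **the point package at the cusps** — the binder
`hptR'` of `Core.chain` for the chart at infinity.

(`Core/PointsInst.lean` (helper71) has the twin `pointPkg_of_cusp` from the STRONGER record
`V3Base` (LIFT at all places of the chart at infinity); here only `V3BaseCusp` (LIFT at the
places where `yb` vanishes) is used.  Different names, no clash.)

`pointPkg_of_cuspBase` : for the chart ring at infinity `R'` (a `W`-subalgebra of `F` with fraction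
field `F`, Noetherian and integrally closed) with helper12's cusp records
`V3BaseCusp` + `V3Cusp` + `V3CuspMid`, every maximal ideal `Q ∋ q₀, x⁻¹` with `m ∉ Q` carries the
abstract `PointPkg` consumed by `Core.chain`:
FACTOR = `V3BaseCusp.cusp_package` (the local ring is factorial) + `LStart.exists_factor`,
PAIR = `LStart.exists_local_pair`, ONE BRANCH = `LStart.exists_glue_of_unique_branch`
(at a cusp exactly one component passes: no gluing condition) — all through helper71's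
`pointPkg_of_localStart`, left alternative.

`hptR'_of_cuspBase` : the literal binder `hptR'` of `Core.chain` with `cusp Q := xinv ∈ Q`, for `m`
invertible in `W`.

`hK0_of_zpow` : the hypothesis `hK0` of `pointPkg_of_localStart` / `pointPkg_of_cuspBase`
(`K0 = W[1/q₀]`) from the hypothesis `hK0` of `Core.chain` (`a = q₀ ^ n * unit`).
-/
import Mathlib
import Fermat.Agent.CAR.Core.Points
import Fermat.Agent.CAR.Local.InstCuspBase

set_option autoImplicit false

namespace Fermat.Agent.CAR.Core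

open Fermat.Agent.CAR.Formal Fermat.Agent.CAR.Formal.NF Fermat.Agent.CAR.Local
  Fermat.Agent.CAR.Local.Inst Fermat.Agent.CAR.Local.InstCusp Fermat.Agent.CAR.Glue IsLocalRing

section

variable {W k K0 FN F : Type*} [CommRing W] [Field k] [Field K0] [Field FN] [Field F]
  [Algebra W K0] [Algebra K0 FN] [Algebra K0 F] [Algebra W FN] [Algebra W F]
  [IsScalarTower W K0 FN] [IsScalarTower W K0 F]

omit [Algebra K0 FN] [Algebra K0 F] [Algebra W FN] [Algebra W F] [IsScalarTower W K0 FN]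
  [IsScalarTower W K0 F] [Field k] [Field FN] [Field F] in
/-- `K0 = W[1/q₀]` in the form used by `pointPkg_of_localStart`, from the form used by
`Core.chain` (every nonzero element of `K0` is `q₀ ^ n * w`, `n ∈ ℤ`). -/
theorem hK0_of_zpow (q₀ : W)
    (hK0 : ∀ a : K0, a ≠ 0 → ∃ (n : ℤ) (w : W), IsUnit w ∧
      a = algebraMap W K0 q₀ ^ n * algebraMap W K0 w) :
    ∀ a : K0, ∃ (w : W) (n : ℕ), a * algebraMap W K0 q₀ ^ n = algebraMap W K0 w := by
  intro a
  by_cases ha : a = 0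
  · exact ⟨0, 0, by rw [ha, zero_mul, map_zero]⟩
  obtain ⟨n, w, -, hw⟩ := hK0 a ha
  by_cases hq : algebraMap W K0 q₀ = 0
  · exact ⟨0, 1, by rw [hq, pow_one, mul_zero, map_zero]⟩
  rcases le_or_gt 0 n with hn | hn
  · obtain ⟨N, rfl⟩ := Int.eq_ofNat_of_zero_le hn
    refine ⟨q₀ ^ N * w, 0, ?_⟩
    rw [pow_zero, mul_one, hw, zpow_natCast, map_mul, map_pow]
  · obtain ⟨N, hN⟩ := Int.eq_ofNat_of_zero_le (neg_nonneg.mpr hn.le)
    refine ⟨w, N, ?_⟩
    have hn' : n = -(N : ℤ) := by omega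
    rw [hw, hn', zpow_neg, zpow_natCast, mul_comm _ (algebraMap W K0 w), mul_assoc,
      inv_mul_cancel₀ (pow_ne_zero _ hq), mul_one]

variable {κ : Type*} [Field κ]

omit [Algebra K0 FN] [IsScalarTower W K0 FN] in
/-- **The point package at a cusp of the chart at infinity.** -/
theorem pointPkg_of_cuspBase (res : W →+* k) (m q : ℕ) (α β : FN →+* F)
    (PA PC : ValuationSubring FN) (O : Fin 3 → ValuationSubring F)
    (R' : Subalgebra W F) [IsFractionRing R' F] [IsNoetherianRing R'] [IsIntegrallyClosed R']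
    {red : ∀ i, O i →+* κ} {hred : ∀ i, ∀ x : O i, red i x = 0 ↔ x ∈ maximalIdeal (O i)}
    {hBO : ∀ i, ∀ b : R', algebraMap R' F b ∈ O i}
    (q₀ : W) (hq0 : algebraMap W K0 q₀ ≠ 0)
    (hK0 : ∀ a : K0, ∃ (w : W) (n : ℕ), a * algebraMap W K0 q₀ ^ n = algebraMap W K0 w)
    {xinv y₀ y₁ y₂ y₃ : R'} {e : F} {m₀ n N : ℕ} {yb g : κ}
    (H : V3BaseCusp O red hred hBO (algebraMap W R' q₀) yb)
    (C : V3Cusp O red hBO xinv y₀ y₁ y₂ y₃ yb)
    (M : V3CuspMid O red hBO (algebraMap W R' q₀) y₁ y₂ e m₀ n N yb g)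
    (Q : Ideal R') [hQ : Q.IsMaximal] (hqQ : algebraMap W R' q₀ ∈ Q) (hxQ : xinv ∈ Q)
    (hmQ : (m : R') ∉ Q) :
    PointPkg K0 res m q α β PA PC O (LocalPair O R' Q m) := by
  obtain ⟨hUFM, i₀, Vs, hi₀, hone, hbr, hlift⟩ := H.cusp_package C M Q hqQ hxQ
  exact pointPkg_of_localStart (κ := fun _ => κ) res m q α β PA PC O R' hBO q₀ hq0 hK0 Q hmQ hUFM
    (fun 𝔮 h𝔮 _ => H.hmin 𝔮 h𝔮) red hred (fun _ => Vs) hbr hlift ⟨i₀, hi₀⟩
    (Or.inl ⟨i₀, hi₀, hone⟩)

omit [Algebra K0 FN] [IsScalarTower W K0 FN] in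
/-- **The binder `hptR'` of `Core.chain`** for the chart at infinity, `cusp Q := xinv ∈ Q`, when
`m` is invertible in `W`. -/
theorem hptR'_of_cuspBase (res : W →+* k) (m q : ℕ) (α β : FN →+* F)
    (PA PC : ValuationSubring FN) (O : Fin 3 → ValuationSubring F)
    (R' : Subalgebra W F) [IsFractionRing R' F] [IsNoetherianRing R'] [IsIntegrallyClosed R']
    {red : ∀ i, O i →+* κ} {hred : ∀ i, ∀ x : O i, red i x = 0 ↔ x ∈ maximalIdeal (O i)}
    {hBO : ∀ i, ∀ b : R', algebraMap R' F b ∈ O i}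
    (q₀ : W) (hq0 : algebraMap W K0 q₀ ≠ 0)
    (hK0 : ∀ a : K0, ∃ (w : W) (n : ℕ), a * algebraMap W K0 q₀ ^ n = algebraMap W K0 w)
    (hm : IsUnit (m : W))
    {xinv y₀ y₁ y₂ y₃ : R'} {e : F} {m₀ n N : ℕ} {yb g : κ}
    (H : V3BaseCusp O red hred hBO (algebraMap W R' q₀) yb)
    (C : V3Cusp O red hBO xinv y₀ y₁ y₂ y₃ yb)
    (M : V3CuspMid O red hBO (algebraMap W R' q₀) y₁ y₂ e m₀ n N yb g) :
    ∀ Q : Ideal R', Q.IsMaximal → algebraMap W R' q₀ ∈ Q → xinv ∈ Q →
      PointPkg K0 res m q α β PA PC O (LocalPair O R' Q m) := by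
  intro Q hQ hqQ hxQ
  have hmQ : (m : R') ∉ Q := by
    intro hmem
    apply hQ.ne_top
    have h1 : IsUnit ((m : ℕ) : R') := by
      rw [← map_natCast (algebraMap W R')]
      exact hm.map _
    exact Ideal.eq_top_of_isUnit_mem _ hmem h1
  exact pointPkg_of_cuspBase res m q α β PA PC O R' q₀ hq0 hK0 H C M Q hqQ hxQ hmQ

end

end Fermat.Agent.CAR.Core
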