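import Mathlib
import Fermat.Agent.CAR.Core.Plug
import Fermat.Agent.CAR.Inst.CuspK0

/-!
# CAR-39 (assembly): the core statement from the FINITE point packages only

`Core.Plug` reduces the core statement (the unfolded `Final.Core 12 11`) to the two families of
point packages `hptR` (finite chart) and `hptR'` (cusps of the chart at infinity).  The cusp half
is `Inst.CuspK0.hptR'_K0`; here it is plugged in:

* `newInertiaK0At_of_hptR` : `Core.newInertiaK0At_of_pointPkgs` with `hptR'` discharged;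
* `core_of_hptR` : `Core.core_of_pointPkgs` with the cusp half discharged — the core statement
  from the point packages of the finite chart `chart W0 (J_0 J_2)` alone.
-/

set_option autoImplicit false

namespace Fermat.Agent.CAR.Core.CoreOfFin

open ModularCurve Fermat.Agent.ESJ.Jac Fermat.Agent.BAD.Dict Fermat.Agent.ESJ.Dict.Bc
  Fermat.Agent.CAR.Formal Fermat.Agent.CAR.V3.RestrictNF Fermat.Agent.CAR.Glob.Charts
  Fermat.Agent.CAR.K0 Fermat.Agent.CAR.V3 Fermat.Agent.CAR.V3.MidRing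
  Fermat.Agent.CAR.V3.MidRestrict
  Fermat.Agent.BAD.TwoVal Fermat.Agent.ESJ.Cong.LevelGen Fermat.Agent.Lib.Red
  Fermat.Agent.CAR.Core

local notation "Qb" => AlgebraicClosure ℚ

set_option maxHeartbeats 1000000 in
set_option synthInstance.maxHeartbeats 400000 in
/-- **`NewInertiaK0At` over the inertia field from the point packages of the finite chart**: the
cusp half `hptR'` of `Core.newInertiaK0At_of_pointPkgs` is `Inst.CuspK0.hptR'_K0`. -/
theorem newInertiaK0At_of_hptR {q : ℕ} (hq : q.Prime) (A : ValuationSubring Qb)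
    (hA : A.LiesOverPrime q) {ζ : Qb} (hζ : IsPrimitiveRoot ζ q) (M' p : ℕ) [NeZero M']
    [NeZero q] (hqM : ¬ q ∣ M') (hp : p.Prime) (hqp : q ≠ p)
    (h2 : q = 2 → 3 ∣ M') (h3 : q = 3 → 2 ∣ M')
    [Algebra ↥(W0 A) (FNK ↥(K0 A) (M' * q))] [Algebra ↥(W0 A) (FNK ↥(K0 A) (M' * q * q))]
    [IsScalarTower ↥(W0 A) ↥(K0 A) (FNK ↥(K0 A) (M' * q))]
    [IsScalarTower ↥(W0 A) ↥(K0 A) (FNK ↥(K0 A) (M' * q * q))]
    {W : ALAut (inertiaField A) M' q} (hW : IsAL M' q W)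
    {w : ALAut (inertiaField A) (M' * q) q} (hw : IsAL3 M' q w)
    (hptR : ∀ (n : ℕ) (Q : Ideal (chart ↥(W0 A) (xB A M' q))), Q.IsMaximal →
      algebraMap (W0 A) (chart ↥(W0 A) (xB A M' q)) ((q : ℕ) : W0 A) ∈ Q →
      PointPkg ↥(K0 A) (resW0 A) (p ^ n) q (alphaStar ↥(K0 A) M' q) (betaStar ↥(K0 A) M' q)
        (OInf (badSetup_W0 hq hA M' hqM)) (OZero (badSetup_W0 hq hA M' hqM) W)
        (O3 hq A hA hζ M' hqM w)
        (LocalPair (O3 hq A hA hζ M' hqM w) (chart ↥(W0 A) (xB A M' q)) Q (p ^ n))) :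
    NormBc.NewInertiaK0At (M' * q) q p (K0.inertiaField A) :=
  newInertiaK0At_of_pointPkgs hq A hA hζ M' p hqM hp hqp hW hw hptR
    (Fermat.Agent.CAR.Inst.CuspK0.hptR'_K0 hq A hA hζ M' hqM hw p hp hqp h2 h3
      (OInf (badSetup_W0 hq hA M' hqM)) (OZero (badSetup_W0 hq hA M' hqM) W))

set_option maxHeartbeats 1000000 in
set_option synthInstance.maxHeartbeats 400000 in
/-- **The core statement** (the unfolded `Final.Core 12 11`) **from the point packages of the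
finite chart alone**, given for every choice of the primitive root `ζ`, of the Atkin–Lehner
involutions `W`, `w` and of the `W0`-algebra structures on `K0 · F_{M'q}`, `K0 · F_{M'q²}`. -/
theorem core_of_hptR
    (hfin : ∀ {q : ℕ} (hq : q.Prime) (A : ValuationSubring Qb) (hA : A.LiesOverPrime q)
      {ζ : Qb} (hζ : IsPrimitiveRoot ζ q) (M' p : ℕ) [NeZero M'] [NeZero q] (hqM : ¬ q ∣ M')
      (_ : p.Prime) (_ : q ≠ p)
      (_ : ∃ r : ℕ, r.Prime ∧ r ≡ 11 [MOD 12] ∧ r ∣ M' ∧ r ≠ q ∧ r ≠ p)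
      (_ : q = 2 → 3 ∣ M') (_ : q = 3 → 2 ∣ M')
      [Algebra ↥(W0 A) (FNK ↥(K0 A) (M' * q))] [Algebra ↥(W0 A) (FNK ↥(K0 A) (M' * q * q))]
      [IsScalarTower ↥(W0 A) ↥(K0 A) (FNK ↥(K0 A) (M' * q))]
      [IsScalarTower ↥(W0 A) ↥(K0 A) (FNK ↥(K0 A) (M' * q * q))]
      {W : ALAut (inertiaField A) M' q} (_ : IsAL M' q W)
      {w : ALAut (inertiaField A) (M' * q) q} (_ : IsAL3 M' q w),
      ∀ (n : ℕ) (Q : Ideal (chart ↥(W0 A) (xB A M' q))), Q.IsMaximal →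
        algebraMap (W0 A) (chart ↥(W0 A) (xB A M' q)) ((q : ℕ) : W0 A) ∈ Q →
        PointPkg ↥(K0 A) (resW0 A) (p ^ n) q (alphaStar ↥(K0 A) M' q) (betaStar ↥(K0 A) M' q)
          (OInf (badSetup_W0 hq hA M' hqM)) (OZero (badSetup_W0 hq hA M' hqM) W)
          (O3 hq A hA hζ M' hqM w)
          (LocalPair (O3 hq A hA hζ M' hqM w) (chart ↥(W0 A) (xB A M' q)) Q (p ^ n))) :
    ∀ (M' q p : ℕ) [NeZero M'] [NeZero q], p.Prime → q.Prime → q ≠ p → ¬ q ∣ M' →
      (∃ r : ℕ, r.Prime ∧ r ≡ 11 [MOD 12] ∧ r ∣ M' ∧ r ≠ q ∧ r ≠ p) →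
      (q = 2 → 3 ∣ M') → (q = 3 → 2 ∣ M') →
      ∀ A : ValuationSubring Qb, A.LiesOverPrime q →
        NormBc.NewInertiaK0At (M' * q) q p (K0.inertiaField A) :=
  core_of_pointPkgs (fun hq A hA _ hζ M' p _ _ hqM hp hqp hr h2 h3 _ _ _ _ W hW _ hw =>
    ⟨hfin hq A hA hζ M' p hqM hp hqp hr h2 h3 hW hw,
      Fermat.Agent.CAR.Inst.CuspK0.hptR'_K0 hq A hA hζ M' hqM hw p hp hqp h2 h3
        (OInf (badSetup_W0 hq hA M' hqM)) (OZero (badSetup_W0 hq hA M' hqM) W)⟩)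

end Fermat.Agent.CAR.Core.CoreOfFin
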