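/-
CAR-18 (assembly, helper71): **the point packages of the two charts from the CAR-17 records.**

* `pointPkg_of_contract` : at every maximal ideal `Q ∋ q` of the finite chart `R`, from
  helper38's `Contract` (`ufm_pointRing`, `Meet.point_cases`: triple point over a supersingular
  place, or exactly one component) and the node relation `NodeRel` at the supersingular places.
* `pointPkg_of_cusp` : at every maximal ideal `Q ∋ q, x⁻¹` of the chart at infinity, from
  helper12's cusp records (one component through each cusp: no node relation).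

These are the hypotheses `hptR`, `hptR'` of `Core.chain`.
-/
import Mathlib
import Fermat.Agent.CAR.Core.Points
import Fermat.Agent.CAR.Glue.LocalInst
import Fermat.Agent.CAR.Glue.LocalInstCusp

set_option autoImplicit false

namespace Fermat.Agent.CAR.Core

open Fermat.Agent.CAR.Formal Fermat.Agent.CAR.Formal.NF Fermat.Agent.CAR.Local
  Fermat.Agent.CAR.Local.Inst Fermat.Agent.CAR.Local.InstCusp Fermat.Agent.CAR.Glue IsLocalRing

section

variable {W k K0 FN F κ B' : Type*} [CommRing W] [Field k] [Field K0] [Field FN] [Field F]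
  [Algebra W K0] [Algebra K0 FN] [Algebra K0 F] [Algebra W FN] [Algebra W F]
  [IsScalarTower W K0 FN] [IsScalarTower W K0 F] [Field κ] [CommRing B']

omit [Algebra K0 FN] [IsScalarTower W K0 FN] in
/-- `m` invertible in `W` is not in a maximal ideal of a `W`-algebra. -/
theorem natCast_notMem_of_mul_eq_one {m : ℕ} {m' : W} (hmm : (m : W) * m' = 1)
    (R : Subalgebra W F) (Q : Ideal R) (hQ : Q.IsMaximal) : (m : R) ∉ Q := by
  intro hm
  apply hQ.ne_top
  rw [Ideal.eq_top_iff_one]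
  have h1 : (1 : R) = (m : R) * algebraMap W R m' := by
    rw [← map_natCast (algebraMap W R), ← map_mul, hmm, map_one]
  rw [h1]
  exact Q.mul_mem_right _ hm

omit [Algebra K0 FN] [IsScalarTower W K0 FN] in
/-- **The point package at every closed point of the special fibre of the finite chart.** -/
theorem pointPkg_of_contract (res : W →+* k) (m q : ℕ) (α β : FN →+* F)
    (PA PC : ValuationSubring FN) (q₀ : W) (hq0 : algebraMap W K0 q₀ ≠ 0)
    (hK0 : ∀ a : K0, ∃ (w : W) (n : ℕ), a * algebraMap W K0 q₀ ^ n = algebraMap W K0 w)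
    (m' : W) (hmm : (m : W) * m' = 1)
    (R : Subalgebra W F) [IsFractionRing R F] [IsNoetherianRing R] [IsIntegrallyClosed R]
    {O : Fin 3 → ValuationSubring F} {red : ∀ i, O i →+* κ}
    {hred : ∀ i, ∀ x : O i, red i x = 0 ↔ x ∈ maximalIdeal (O i)}
    {hBO : ∀ i, ∀ b : R, algebraMap R F b ∈ O i}
    {red' : B' →+* κ} {π₀ π₂ : B' →+* R} {D : κ → κ}
    {x' : B'} {u u₁ v₁ h : R} {Db G : κ} {N e : ℕ}
    (H : Contract O red hred hBO red' π₀ π₂ D (algebraMap W R q₀) x' u u₁ v₁ h Db G N e)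
    (hell : ∀ Vs : ValuationSubring κ, IsFinPlace red' Vs →
      ∃ y : B', D (red' y) ≠ 0 ∧ D (red' y) ^ 12 * G ∉ Vs.nonunits)
    (hnode : ∀ (Vs : ValuationSubring κ) (hVs : IsFinPlace red' Vs), Db ∈ Vs.nonunits →
      NodeRel res m q α β PA PC O (fun i => compositeSubring (O i) (red i) (hred i) Vs)
        (pointRing F (Meet.pt H 1 Vs hVs)).toSubring)
    (Q : Ideal R) (hQ : Q.IsMaximal) (hqQ : algebraMap W R q₀ ∈ Q) :
    PointPkg K0 res m q α β PA PC O (LocalPair O R Q m) := by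
  have hmQ : (m : R) ∉ Q := natCast_notMem_of_mul_eq_one hmm R Q hQ
  have hUFM : UniqueFactorizationMonoid (pointRing F Q) := H.ufm_pointRing hell Q hqQ
  rcases Meet.point_cases H Q hqQ with ⟨Vs, hVs, hDb, hall⟩ | ⟨i₀, Vs, hVs, -, hP, hone⟩
  · -- a triple point over a supersingular place
    have h1 := hall 1
    subst h1
    exact pointPkg_of_localStart (κ := fun _ => κ) res m q α β PA PC O R hBO q₀ hq0 hK0
      (Meet.pt H 1 Vs hVs) hmQ hUFM (fun 𝔮 h𝔮 _ => H.hmin 𝔮 h𝔮) red hred (fun _ => Vs)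
      (fun i _ => ⟨Meet.hA_of_isFinPlace H i Vs hVs, hall i⟩)
      (fun i _ => H.toV3Base.lift i Vs hVs.1 (H.fin i Vs hVs))
      ⟨1, Meet.centre_le_pt H 1 Vs hVs⟩
      (Or.inr ⟨fun i => (Meet.centre_le_pt H i Vs hVs).trans (hall i).le, hnode Vs hVs hDb⟩)
  · -- a point on exactly one component
    subst hP
    have hone' : ∀ i, centre (O i) (hBO i) ≤ Meet.pt H i₀ Vs hVs → i = i₀ := by
      intro i hi
      by_contra hne
      exact hone i hne hi
    exact pointPkg_of_localStart (κ := fun _ => κ) res m q α β PA PC O R hBO q₀ hq0 hK0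
      (Meet.pt H i₀ Vs hVs) hmQ hUFM (fun 𝔮 h𝔮 _ => H.hmin 𝔮 h𝔮) red hred (fun _ => Vs)
      (fun i hi => by
        have hii := hone' i hi
        subst hii
        exact ⟨Meet.hA_of_isFinPlace H i Vs hVs, rfl⟩)
      (fun i _ => H.toV3Base.lift i Vs hVs.1 (H.fin i Vs hVs))
      ⟨i₀, Meet.centre_le_pt H i₀ Vs hVs⟩
      (Or.inl ⟨i₀, Meet.centre_le_pt H i₀ Vs hVs, hone'⟩)

omit [Algebra K0 FN] [IsScalarTower W K0 FN] in
/-- **The point package at every cusp of the chart at infinity.** -/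
theorem pointPkg_of_cusp (res : W →+* k) (m q : ℕ) (α β : FN →+* F)
    (PA PC : ValuationSubring FN) (q₀ : W) (hq0 : algebraMap W K0 q₀ ≠ 0)
    (hK0 : ∀ a : K0, ∃ (w : W) (n : ℕ), a * algebraMap W K0 q₀ ^ n = algebraMap W K0 w)
    (m' : W) (hmm : (m : W) * m' = 1)
    (R' : Subalgebra W F) [IsFractionRing R' F] [IsNoetherianRing R'] [IsIntegrallyClosed R']
    {O : Fin 3 → ValuationSubring F} {red : ∀ i, O i →+* κ}
    {hred : ∀ i, ∀ x : O i, red i x = 0 ↔ x ∈ maximalIdeal (O i)}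
    {hBO : ∀ i, ∀ b : R', algebraMap R' F b ∈ O i} {xinv y₀ y₁ y₂ y₃ : R'} {e : F}
    {m₀ n N : ℕ} {yb g : κ}
    (H : V3Base O red hred hBO (algebraMap W R' q₀))
    (C : V3Cusp O red hBO xinv y₀ y₁ y₂ y₃ yb)
    (M : V3CuspMid O red hBO (algebraMap W R' q₀) y₁ y₂ e m₀ n N yb g)
    (Q : Ideal R') (hQ : Q.IsMaximal) (hqQ : algebraMap W R' q₀ ∈ Q) (hxQ : xinv ∈ Q) :
    PointPkg K0 res m q α β PA PC O (LocalPair O R' Q m) := by
  have hmQ : (m : R') ∉ Q := natCast_notMem_of_mul_eq_one hmm R' Q hQ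
  have hUFM : UniqueFactorizationMonoid (pointRing F Q) := ufm_pointRing_cusp H C M Q hqQ hxQ
  obtain ⟨i₀, Vs, hA, hP, -, hone⟩ := C.exists_point H Q hqQ hxQ
  subst hP
  have hle : centre (O i₀) (hBO i₀) ≤ pointIdeal (O i₀) (red i₀) (hred i₀) Vs hA :=
    centre_le_pointIdeal (O i₀) (red i₀) (hred i₀) (hBO i₀) Vs hA
  have hone' : ∀ i, centre (O i) (hBO i) ≤ pointIdeal (O i₀) (red i₀) (hred i₀) Vs hA →
      i = i₀ := by
    intro i hi
    by_contra hne
    exact hone i hne hi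
  exact pointPkg_of_localStart (κ := fun _ => κ) res m q α β PA PC O R' hBO q₀ hq0 hK0
    (pointIdeal (O i₀) (red i₀) (hred i₀) Vs hA) hmQ hUFM (fun 𝔮 h𝔮 _ => H.hmin 𝔮 h𝔮) red hred
    (fun _ => Vs)
    (fun i hi => by
      have hii := hone' i hi
      subst hii
      exact ⟨hA, rfl⟩)
    (fun i hi => by
      have hii := hone' i hi
      subst hii
      exact H.lift_point i Vs hA hQ)
    ⟨i₀, hle⟩ (Or.inl ⟨i₀, hle, hone'⟩)

end

end Fermat.Agent.CAR.Core
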