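/-
CAR-39, binder (6) of `Core.newInertiaK0At_W0_of_points`: **the point packages of the finite
chart over the inertia field.**

`K0 = inertiaField A`, `W0 = A ∩ K0`, `res = resW0 A`, `q₀ = q`, `F = K0 · F_{M' q²}`,
`R = chart W0 x` the finite chart ring of a function `x` of nonzero `q`-order.

* `hptR_of_contract` : the LITERAL binder `hptR` of `Core.newInertiaK0At_W0_of_points`
  (for every `n`, at every maximal ideal `Q ∋ q` of `R`, the record
  `PointPkg K0 res (p ^ n) q α β PA PC O (LocalPair O R Q (p ^ n))`) from a `Contract` on `R`,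
  the elliptic hypothesis `hell` and the node relation `hnode` (for every `n`), i.e.
  `Core.pointPkg_of_contract` with all its side binders discharged over `W0`:
  `q ≠ 0` in `K0`, `K0 = W0[1/q]` (`frontK0_hK0'`), `p ^ n` invertible in `W0` (`frontK0_inv`),
  `R` Noetherian and integrally closed (`Inst.Cusp.chart_instances`);
* `hptR_of_contract_J` : the same with `hell` discharged by `EllFinK0.hell_K0` for a contract on
  the canonical `B' = integralClosure (W0[J(q^{M'})]) (K0 · F_{M'})` written with `D = d/dJ̄`,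
  `G = J̄⁸ (J̄ - 1728)⁶`, `x' = J(q)`, at a level `M'` prime to `q` and divisible by a prime
  `r ≡ 11 (mod 12)`; for `q = 3` / `q = 2` from `EllFin.Haupt2` / `EllFin.Haupt3`;
* `hptR_of_contract_closed` : the same with `hell` discharged by `EllFinClosed.hell_K0_closed`
  for every residue characteristic (level hypotheses of `Final.Core 12 11`);
* `hptR_K0_of_contract` : at the literal objects of `Core/Plug.lean` (`O3`, `xB`, `OInf hB`,
  `OZero hB W`) the node relation is discharged too (`NodeFinK0.hnode_K0_lit` with the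
  level-`M' q` chart block of `LevelNB` and the middle pull-back `Pi1Fin.pi1`): the conclusion is
  the first conjunct of `hpt` in `Core.core_of_pointPkgs` and the ONLY input is the contract
  record (with the coordinates of `red`, `red'`, `π₀`, `π₂`, `x'`).
-/
import Mathlib
import Fermat.Agent.CAR.Core.FrontK0
import Fermat.Agent.CAR.Core.PointsInst
import Fermat.Agent.CAR.Inst.Cusp
import Fermat.Agent.CAR.Inst.EllFinK0
import Fermat.Agent.CAR.Inst.EllFinClosed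
import Fermat.Agent.CAR.Inst.NodeFinK0
import Fermat.Agent.CAR.Inst.LevelNB
import Fermat.Agent.CAR.Inst.Pi1Fin
import Fermat.Agent.CAR.Core.Plug

set_option autoImplicit false

namespace Fermat.Agent.CAR.Core.HptRK0

open ModularCurve IsLocalRing Fermat.Agent.ESJ.Jac Fermat.Agent.CAR.V3.RestrictNF
  Fermat.Agent.CAR.Glob.Charts Fermat.Agent.CAR.K0 Fermat.Agent.CAR.Local
  Fermat.Agent.CAR.Local.Inst Fermat.Agent.CAR.Glue Fermat.Agent.Lib.Red

local notation "Qb" => AlgebraicClosure ℚ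

set_option maxHeartbeats 1000000 in
set_option synthInstance.maxHeartbeats 400000 in
/-- **The binder `hptR` of `Core.newInertiaK0At_W0_of_points` from a contract on the finite
chart**, the elliptic hypothesis and the node relation. -/
theorem hptR_of_contract {q : ℕ} (hq : q.Prime) (A : ValuationSubring Qb)
    (hA : A.LiesOverPrime q) (M' p : ℕ) [NeZero M'] [NeZero q] (hp : p.Prime) (hqp : q ≠ p)
    [Algebra ↥(W0 A) (FNK ↥(K0 A) (M' * q))] [Algebra ↥(W0 A) (FNK ↥(K0 A) (M' * q * q))]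
    [IsScalarTower ↥(W0 A) ↥(K0 A) (FNK ↥(K0 A) (M' * q))]
    [IsScalarTower ↥(W0 A) ↥(K0 A) (FNK ↥(K0 A) (M' * q * q))]
    (PA PC : ValuationSubring (FNK ↥(K0 A) (M' * q)))
    (x : FNK ↥(K0 A) (M' * q * q)) (hx : (x : LaurentSeries ↥(K0 A)).order ≠ 0)
    [IsFractionRing (chart ↥(W0 A) x) (FNK ↥(K0 A) (M' * q * q))]
    {κ B' : Type*} [Field κ] [CommRing B']
    {O : Fin 3 → ValuationSubring (FNK ↥(K0 A) (M' * q * q))} {red : ∀ i, O i →+* κ}
    {hred : ∀ i, ∀ z : O i, red i z = 0 ↔ z ∈ maximalIdeal (O i)}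
    {hBO : ∀ i, ∀ b : chart ↥(W0 A) x,
      algebraMap (chart ↥(W0 A) x) (FNK ↥(K0 A) (M' * q * q)) b ∈ O i}
    {red' : B' →+* κ} {π₀ π₂ : B' →+* chart ↥(W0 A) x} {D : κ → κ}
    {x' : B'} {u u₁ v₁ h : chart ↥(W0 A) x} {Db G : κ} {N e : ℕ}
    (H : Contract O red hred hBO red' π₀ π₂ D
      (algebraMap (W0 A) (chart ↥(W0 A) x) ((q : ℕ) : W0 A)) x' u u₁ v₁ h Db G N e)
    (hell : ∀ Vs : ValuationSubring κ, IsFinPlace red' Vs →
      ∃ y : B', D (red' y) ≠ 0 ∧ D (red' y) ^ 12 * G ∉ Vs.nonunits)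
    (hnode : ∀ (n : ℕ) (Vs : ValuationSubring κ) (hVs : IsFinPlace red' Vs),
      Db ∈ Vs.nonunits →
      NodeRel (resW0 A) (p ^ n) q (alphaStar ↥(K0 A) M' q) (betaStar ↥(K0 A) M' q) PA PC O
        (fun i => compositeSubring (O i) (red i) (hred i) Vs)
        (pointRing (FNK ↥(K0 A) (M' * q * q)) (Meet.pt H 1 Vs hVs)).toSubring) :
    ∀ (n : ℕ) (Q : Ideal (chart ↥(W0 A) x)), Q.IsMaximal →
      algebraMap (W0 A) (chart ↥(W0 A) x) ((q : ℕ) : W0 A) ∈ Q →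
      PointPkg ↥(K0 A) (resW0 A) (p ^ n) q (alphaStar ↥(K0 A) M' q) (betaStar ↥(K0 A) M' q)
        PA PC O (LocalPair O (chart ↥(W0 A) x) Q (p ^ n)) := by
  intro n Q hQ hqQ
  have := isDiscreteValuationRing_W0 hq hA
  obtain ⟨-, hNoeth, hIC⟩ :=
    Fermat.Agent.CAR.Inst.Cusp.chart_instances (↥(K0 A)) (M' * q * q) (W := ↥(W0 A)) x hx
  obtain ⟨p', hpp⟩ := frontK0_inv hq hA hp hqp
  have hmm : ((p ^ n : ℕ) : W0 A) * p' ^ n = 1 := by
    rw [Nat.cast_pow, ← mul_pow, hpp, one_pow]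
  have hq0 : algebraMap (W0 A) (K0 A) ((q : ℕ) : W0 A) ≠ 0 := by
    rw [map_natCast]
    exact Nat.cast_ne_zero.mpr hq.ne_zero
  exact pointPkg_of_contract (resW0 A) (p ^ n) q (alphaStar ↥(K0 A) M' q)
    (betaStar ↥(K0 A) M' q) PA PC ((q : ℕ) : W0 A) hq0 (frontK0_hK0' hq hA) (p' ^ n) hmm
    (chart ↥(W0 A) x) H hell (hnode n) Q hQ hqQ

set_option maxHeartbeats 1000000 in
set_option synthInstance.maxHeartbeats 400000 in
/-- **The binder `hptR` from a contract on the canonical `B'`** (`D = d/dJ̄`,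
`G = J̄⁸ (J̄ - 1728)⁶`, `x' = J(q)`): the elliptic hypothesis is `EllFinK0.hell_K0`; what remains
is the contract, the node relation and, for `q = 3` / `q = 2`, the Hauptmodul records. -/
theorem hptR_of_contract_J {q : ℕ} (hq : q.Prime) (A : ValuationSubring Qb)
    (hA : A.LiesOverPrime q) (M' p : ℕ) [NeZero M'] [NeZero q] (hp : p.Prime) (hqp : q ≠ p)
    [Algebra ↥(W0 A) (FNK ↥(K0 A) (M' * q))] [Algebra ↥(W0 A) (FNK ↥(K0 A) (M' * q * q))]
    [IsScalarTower ↥(W0 A) ↥(K0 A) (FNK ↥(K0 A) (M' * q))]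
    [IsScalarTower ↥(W0 A) ↥(K0 A) (FNK ↥(K0 A) (M' * q * q))]
    [IsAlgClosed (ResidueField A)] (hM' : (M' : ResidueField A) ≠ 0) (hqM : ¬ q ∣ M')
    (hr : ∃ r : ℕ, r.Prime ∧ r ≡ 11 [MOD 12] ∧ r ∣ M')
    (PA PC : ValuationSubring (FNK ↥(K0 A) (M' * q)))
    (x : FNK ↥(K0 A) (M' * q * q)) (hx : (x : LaurentSeries ↥(K0 A)).order ≠ 0)
    [IsFractionRing (chart ↥(W0 A) x) (FNK ↥(K0 A) (M' * q * q))]
    (red' : ↥(integralClosure ↥((BaseFn.Data.ofJ (W0 A) (resW0 A) M').AX)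
        ↥(laurentBaseChange ↥(K0 A) (modularFunctionFieldFull M'))) →+*
      ↥(modularFunctionFieldFullC (ResidueField A) M'))
    (hred' : ∀ b : ↥(integralClosure ↥((BaseFn.Data.ofJ (W0 A) (resW0 A) M').AX)
        ↥(laurentBaseChange ↥(K0 A) (modularFunctionFieldFull M'))),
      red' b = redF (W0 A) (resW0 A) M' (resW0_eq_zero_of_not_isUnit A) hM'
        ⟨b, (BaseFn.Data.ofJ (W0 A) (resW0 A) M').mem_Ow_of_isIntegral_AX hM' b.2⟩)
    {O : Fin 3 → ValuationSubring (FNK ↥(K0 A) (M' * q * q))}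
    {red : ∀ i, O i →+* ↥(modularFunctionFieldFullC (ResidueField A) M')}
    {hred : ∀ i, ∀ z : O i, red i z = 0 ↔ z ∈ maximalIdeal (O i)}
    {hBO : ∀ i, ∀ b : chart ↥(W0 A) x,
      algebraMap (chart ↥(W0 A) x) (FNK ↥(K0 A) (M' * q * q)) b ∈ O i}
    {π₀ π₂ : ↥(integralClosure ↥((BaseFn.Data.ofJ (W0 A) (resW0 A) M').AX)
      ↥(laurentBaseChange ↥(K0 A) (modularFunctionFieldFull M'))) →+* chart ↥(W0 A) x}
    {x' : ↥(integralClosure ↥((BaseFn.Data.ofJ (W0 A) (resW0 A) M').AX)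
      ↥(laurentBaseChange ↥(K0 A) (modularFunctionFieldFull M')))}
    {u u₁ v₁ h : chart ↥(W0 A) x} {Db : ↥(modularFunctionFieldFullC (ResidueField A) M')}
    {N e : ℕ}
    (hx' : (x' : ↥(laurentBaseChange ↥(K0 A) (modularFunctionFieldFull M'))) =
      Fermat.Agent.ESJ.Cong.LevelGen.jLevel ↥(K0 A) M')
    (H : Contract O red hred hBO red' π₀ π₂ (Deriv.dJ (ResidueField A) M')
      (algebraMap (W0 A) (chart ↥(W0 A) x) ((q : ℕ) : W0 A)) x' u u₁ v₁ h Db
      (Deriv.GJ (ResidueField A) M') N e)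
    (h3 : q = 3 → Fermat.Agent.CAR.Inst.EllFin.Haupt2 A M' red')
    (h2 : q = 2 → Fermat.Agent.CAR.Inst.EllFin.Haupt3 A M' red')
    (hnode : ∀ (n : ℕ) (Vs : ValuationSubring ↥(modularFunctionFieldFullC (ResidueField A) M'))
      (hVs : IsFinPlace red' Vs), Db ∈ Vs.nonunits →
      NodeRel (resW0 A) (p ^ n) q (alphaStar ↥(K0 A) M' q) (betaStar ↥(K0 A) M' q) PA PC O
        (fun i => compositeSubring (O i) (red i) (hred i) Vs)
        (pointRing (FNK ↥(K0 A) (M' * q * q)) (Meet.pt H 1 Vs hVs)).toSubring) :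
    ∀ (n : ℕ) (Q : Ideal (chart ↥(W0 A) x)), Q.IsMaximal →
      algebraMap (W0 A) (chart ↥(W0 A) x) ((q : ℕ) : W0 A) ∈ Q →
      PointPkg ↥(K0 A) (resW0 A) (p ^ n) q (alphaStar ↥(K0 A) M' q) (betaStar ↥(K0 A) M' q)
        PA PC O (LocalPair O (chart ↥(W0 A) x) Q (p ^ n)) := by
  have := isDiscreteValuationRing_W0 hq hA
  obtain ⟨-, hNoeth, hIC⟩ :=
    Fermat.Agent.CAR.Inst.Cusp.chart_instances (↥(K0 A)) (M' * q * q) (W := ↥(W0 A)) x hx
  exact hptR_of_contract hq A hA M' p hp hqp PA PC x hx H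
    (Fermat.Agent.CAR.Inst.EllFinK0.hell_K0 hq hA M' hM' red' hred' hqM hr hx' H h3 h2) hnode

set_option maxHeartbeats 1000000 in
set_option synthInstance.maxHeartbeats 400000 in
/-- **The binder `hptR` from a contract on the canonical `B'`, every residue characteristic**:
the elliptic hypothesis is `EllFinClosed.hell_K0_closed` (level hypotheses of `Final.Core 12 11`);
what remains is the contract and the node relation. -/
theorem hptR_of_contract_closed {q : ℕ} (hq : q.Prime) (A : ValuationSubring Qb)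
    (hA : A.LiesOverPrime q) (M' p : ℕ) [NeZero M'] [NeZero q] (hp : p.Prime) (hqp : q ≠ p)
    [Algebra ↥(W0 A) (FNK ↥(K0 A) (M' * q))] [Algebra ↥(W0 A) (FNK ↥(K0 A) (M' * q * q))]
    [IsScalarTower ↥(W0 A) ↥(K0 A) (FNK ↥(K0 A) (M' * q))]
    [IsScalarTower ↥(W0 A) ↥(K0 A) (FNK ↥(K0 A) (M' * q * q))]
    [IsAlgClosed (ResidueField A)] (hM' : (M' : ResidueField A) ≠ 0) (hqM : ¬ q ∣ M')
    (hr : ∃ r : ℕ, r.Prime ∧ r ≡ 11 [MOD 12] ∧ r ∣ M')
    (h2 : q = 2 → 3 ∣ M') (h3 : q = 3 → 2 ∣ M')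
    (PA PC : ValuationSubring (FNK ↥(K0 A) (M' * q)))
    (x : FNK ↥(K0 A) (M' * q * q)) (hx : (x : LaurentSeries ↥(K0 A)).order ≠ 0)
    [IsFractionRing (chart ↥(W0 A) x) (FNK ↥(K0 A) (M' * q * q))]
    (red' : ↥(integralClosure ↥((BaseFn.Data.ofJ (W0 A) (resW0 A) M').AX)
        ↥(laurentBaseChange ↥(K0 A) (modularFunctionFieldFull M'))) →+*
      ↥(modularFunctionFieldFullC (ResidueField A) M'))
    (hred' : ∀ b : ↥(integralClosure ↥((BaseFn.Data.ofJ (W0 A) (resW0 A) M').AX)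
        ↥(laurentBaseChange ↥(K0 A) (modularFunctionFieldFull M'))),
      red' b = redF (W0 A) (resW0 A) M' (resW0_eq_zero_of_not_isUnit A) hM'
        ⟨b, (BaseFn.Data.ofJ (W0 A) (resW0 A) M').mem_Ow_of_isIntegral_AX hM' b.2⟩)
    {O : Fin 3 → ValuationSubring (FNK ↥(K0 A) (M' * q * q))}
    {red : ∀ i, O i →+* ↥(modularFunctionFieldFullC (ResidueField A) M')}
    {hred : ∀ i, ∀ z : O i, red i z = 0 ↔ z ∈ maximalIdeal (O i)}
    {hBO : ∀ i, ∀ b : chart ↥(W0 A) x,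
      algebraMap (chart ↥(W0 A) x) (FNK ↥(K0 A) (M' * q * q)) b ∈ O i}
    {π₀ π₂ : ↥(integralClosure ↥((BaseFn.Data.ofJ (W0 A) (resW0 A) M').AX)
      ↥(laurentBaseChange ↥(K0 A) (modularFunctionFieldFull M'))) →+* chart ↥(W0 A) x}
    {x' : ↥(integralClosure ↥((BaseFn.Data.ofJ (W0 A) (resW0 A) M').AX)
      ↥(laurentBaseChange ↥(K0 A) (modularFunctionFieldFull M')))}
    {u u₁ v₁ h : chart ↥(W0 A) x} {Db : ↥(modularFunctionFieldFullC (ResidueField A) M')}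
    {N e : ℕ}
    (hx' : (x' : ↥(laurentBaseChange ↥(K0 A) (modularFunctionFieldFull M'))) =
      Fermat.Agent.ESJ.Cong.LevelGen.jLevel ↥(K0 A) M')
    (H : Contract O red hred hBO red' π₀ π₂ (Deriv.dJ (ResidueField A) M')
      (algebraMap (W0 A) (chart ↥(W0 A) x) ((q : ℕ) : W0 A)) x' u u₁ v₁ h Db
      (Deriv.GJ (ResidueField A) M') N e)
    (hnode : ∀ (n : ℕ) (Vs : ValuationSubring ↥(modularFunctionFieldFullC (ResidueField A) M'))
      (hVs : IsFinPlace red' Vs), Db ∈ Vs.nonunits →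
      NodeRel (resW0 A) (p ^ n) q (alphaStar ↥(K0 A) M' q) (betaStar ↥(K0 A) M' q) PA PC O
        (fun i => compositeSubring (O i) (red i) (hred i) Vs)
        (pointRing (FNK ↥(K0 A) (M' * q * q)) (Meet.pt H 1 Vs hVs)).toSubring) :
    ∀ (n : ℕ) (Q : Ideal (chart ↥(W0 A) x)), Q.IsMaximal →
      algebraMap (W0 A) (chart ↥(W0 A) x) ((q : ℕ) : W0 A) ∈ Q →
      PointPkg ↥(K0 A) (resW0 A) (p ^ n) q (alphaStar ↥(K0 A) M' q) (betaStar ↥(K0 A) M' q)
        PA PC O (LocalPair O (chart ↥(W0 A) x) Q (p ^ n)) := by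
  have := isDiscreteValuationRing_W0 hq hA
  obtain ⟨-, hNoeth, hIC⟩ :=
    Fermat.Agent.CAR.Inst.Cusp.chart_instances (↥(K0 A)) (M' * q * q) (W := ↥(W0 A)) x hx
  exact hptR_of_contract hq A hA M' p hp hqp PA PC x hx H
    (Fermat.Agent.CAR.Inst.EllFinClosed.hell_K0_closed hq hA M' hM' red' hred' hqM hr h2 h3 hx' H)
    hnode

/-! ### The closing step at the literal objects -/

section Close

open Fermat.Agent.CAR.V3 Fermat.Agent.CAR.V3.MidRing Fermat.Agent.CAR.V3.MidRestrict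
  Fermat.Agent.BAD.TwoVal Fermat.Agent.CAR.Inst

set_option maxHeartbeats 4000000 in
set_option synthInstance.maxHeartbeats 400000 in
/-- **The binder `hptR` of `Core.newInertiaK0At_of_pointPkgs` (the first conjunct of `hpt` in
`Core.core_of_pointPkgs`) from a contract on the literal objects**: components
`O3 = ![OInf3 hB, OMid …, OZero3 hB w]`, chart function `xB = J_0 J_2`, canonical `B'`,
`D = d/dJ̄`, `G = J̄⁸ (J̄ - 1728)⁶`, `x' = J(q)`, any family `red` agreeing with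
`redInf3 hB`, `redMidK`, `redZero3 hB w`, any `red'` equal to `redF` on `B'`, any `π₀`, `π₂`
restricting `π_0^*`, `π_2^*`.  The elliptic hypothesis (`EllFinClosed.hell_K0_closed`), the node
relation (`NodeFinK0.hnode_K0_lit` with the level-`M' q` chart block `LevelNB` and the middle
pull-back `Pi1Fin.pi1`) and all side binders are discharged: the contract is the only input. -/
theorem hptR_K0_of_contract {q : ℕ} (hq : q.Prime) (A : ValuationSubring Qb)
    (hA : A.LiesOverPrime q) {ζ : Qb} (hζ : IsPrimitiveRoot ζ q) (M' p : ℕ) [NeZero M']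
    [NeZero q] (hqM : ¬ q ∣ M') (hp : p.Prime) (hqp : q ≠ p)
    (hr : ∃ r : ℕ, r.Prime ∧ r ≡ 11 [MOD 12] ∧ r ∣ M' ∧ r ≠ q ∧ r ≠ p)
    (h2 : q = 2 → 3 ∣ M') (h3 : q = 3 → 2 ∣ M')
    [Algebra ↥(W0 A) (FNK ↥(K0 A) (M' * q))] [Algebra ↥(W0 A) (FNK ↥(K0 A) (M' * q * q))]
    [IsScalarTower ↥(W0 A) ↥(K0 A) (FNK ↥(K0 A) (M' * q))]
    [IsScalarTower ↥(W0 A) ↥(K0 A) (FNK ↥(K0 A) (M' * q * q))]
    {W : ALAut (inertiaField A) M' q} (hW : IsAL M' q W)
    {w : ALAut (inertiaField A) (M' * q) q} (hw : IsAL3 M' q w)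
    [IsAlgClosed (ResidueField A)]
    {red : ∀ i : Fin 3, ↥(O3 hq A hA hζ M' hqM w i) →+*
      ↥(modularFunctionFieldFullC (ResidueField A) M')}
    {hred : ∀ i, ∀ z : ↥(O3 hq A hA hζ M' hqM w i),
      red i z = 0 ↔ z ∈ maximalIdeal ↥(O3 hq A hA hζ M' hqM w i)}
    {hBO : ∀ i, ∀ b : chart ↥(W0 A) (xB A M' q),
      algebraMap (chart ↥(W0 A) (xB A M' q)) (FNK ↥(K0 A) (M' * q * q)) b ∈
        O3 hq A hA hζ M' hqM w i}
    (hred0 : ∀ f : OInf3 (badSetup_W0 hq hA M' hqM),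
      red 0 f = redInf3 (badSetup_W0 hq hA M' hqM) f)
    (hred1 : ∀ f : OMid hq A hA hζ M' hqM (IsLocalRing.residue A),
      red 1 f = MidKappa.redMidK hq A hA hζ M' hqM (Count.redMid_mem_fullC hq A hA hζ M' hqM) f)
    (hred2 : ∀ f : OZero3 (badSetup_W0 hq hA M' hqM) w,
      red 2 f = redZero3 (badSetup_W0 hq hA M' hqM) w f)
    (red' : ↥(integralClosure ↥((BaseFn.Data.ofJ (W0 A) (resW0 A) M').AX)
        ↥(laurentBaseChange ↥(K0 A) (modularFunctionFieldFull M'))) →+*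
      ↥(modularFunctionFieldFullC (ResidueField A) M'))
    (hred' : ∀ b : ↥(integralClosure ↥((BaseFn.Data.ofJ (W0 A) (resW0 A) M').AX)
        ↥(laurentBaseChange ↥(K0 A) (modularFunctionFieldFull M'))),
      red' b = redF (W0 A) (resW0 A) M' (resW0_eq_zero_of_not_isUnit A)
        (badSetup_W0 hq hA M' hqM).hMk
        ⟨b, (BaseFn.Data.ofJ (W0 A) (resW0 A) M').mem_Ow_of_isIntegral_AX
          (badSetup_W0 hq hA M' hqM).hMk b.2⟩)
    {π₀ π₂ : ↥(integralClosure ↥((BaseFn.Data.ofJ (W0 A) (resW0 A) M').AX)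
      ↥(laurentBaseChange ↥(K0 A) (modularFunctionFieldFull M'))) →+*
        chart ↥(W0 A) (xB A M' q)}
    (hπ₀ : ∀ y, ((π₀ y : chart ↥(W0 A) (xB A M' q)) : FNK ↥(K0 A) (M' * q * q)) =
      piStar0 ↥(K0 A) M' q (y : ↥(laurentBaseChange ↥(K0 A) (modularFunctionFieldFull M'))))
    (hπ₂ : ∀ y, ((π₂ y : chart ↥(W0 A) (xB A M' q)) : FNK ↥(K0 A) (M' * q * q)) =
      piStar2 ↥(K0 A) M' q (y : ↥(laurentBaseChange ↥(K0 A) (modularFunctionFieldFull M'))))
    {x' : ↥(integralClosure ↥((BaseFn.Data.ofJ (W0 A) (resW0 A) M').AX)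
      ↥(laurentBaseChange ↥(K0 A) (modularFunctionFieldFull M')))}
    {u u₁ v₁ h : chart ↥(W0 A) (xB A M' q)}
    {Db : ↥(modularFunctionFieldFullC (ResidueField A) M')} {N e : ℕ}
    (hx' : (x' : ↥(laurentBaseChange ↥(K0 A) (modularFunctionFieldFull M'))) =
      Fermat.Agent.ESJ.Cong.LevelGen.jLevel ↥(K0 A) M')
    (H : Contract (O3 hq A hA hζ M' hqM w) red hred hBO red' π₀ π₂
      (Deriv.dJ (ResidueField A) M')
      (algebraMap (W0 A) (chart ↥(W0 A) (xB A M' q)) ((q : ℕ) : W0 A)) x' u u₁ v₁ h Db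
      (Deriv.GJ (ResidueField A) M') N e) :
    ∀ (n : ℕ) (Q : Ideal (chart ↥(W0 A) (xB A M' q))), Q.IsMaximal →
      algebraMap (W0 A) (chart ↥(W0 A) (xB A M' q)) ((q : ℕ) : W0 A) ∈ Q →
      PointPkg ↥(K0 A) (resW0 A) (p ^ n) q (alphaStar ↥(K0 A) M' q) (betaStar ↥(K0 A) M' q)
        (OInf (badSetup_W0 hq hA M' hqM)) (OZero (badSetup_W0 hq hA M' hqM) W)
        (O3 hq A hA hζ M' hqM w)
        (LocalPair (O3 hq A hA hζ M' hqM w) (chart ↥(W0 A) (xB A M' q)) Q (p ^ n)) := by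
  have hx : ((xB A M' q : FNK ↥(K0 A) (M' * q * q)) : LaurentSeries ↥(K0 A)).order ≠ 0 :=
    HMin.order_J0_mul_J2_ne_zero (L := ↥(K0 A)) (M' := M') (q := q)
  have := isDiscreteValuationRing_W0 hq hA
  obtain ⟨hFrac, hNoeth, -⟩ :=
    Cusp.chart_instances (↥(K0 A)) (M' * q * q) (W := ↥(W0 A)) (xB A M' q) hx
  have := LevelNB.isFractionRing_chart_xN ↥(K0 A) M' q (W := ↥(W0 A))
  have := LevelNB.isIntegrallyClosed_chart_xN ↥(K0 A) M' q (W := ↥(W0 A))
  obtain ⟨r, hr1, hr2, hr3, -, -⟩ := hr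
  refine hptR_of_contract_closed hq A hA M' p hp hqp (badSetup_W0 hq hA M' hqM).hMk hqM
    ⟨r, hr1, hr2, hr3⟩ h2 h3 _ _ (xB A M' q) hx red' hred' hx' H ?_
  intro n
  exact NodeFinK0.hnode_K0_lit hq A hA hζ M' hqM (xN := LevelNB.xN ↥(K0 A) M' q) hW hw
    (Count.redMid_mem_fullC hq A hA hζ M' hqM) hred0 hred1 hred2 H
    (LevelNB.h1α ↥(K0 A) M' q hq) (LevelNB.h2α ↥(K0 A) M' q)
    (LevelNB.h1β ↥(K0 A) M' q hq) (LevelNB.h2β ↥(K0 A) M' q)
    (Pi1Fin.incl (BaseFn.Data.ofJ (W0 A) (resW0 A) M') (badSetup_W0 hq hA M' hqM).hMk)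
    (fun y => hred' y)
    (Pi1Fin.pi1 ↥(K0 A) M' q (W0 A) (resW0 A) hq) (fun _ => rfl)
    (LevelNB.p0 (W0 A) (resW0 A) M' q
      (integralClosure ↥((BaseFn.Data.ofJ (W0 A) (resW0 A) M').AX)
        ↥(laurentBaseChange ↥(K0 A) (modularFunctionFieldFull M'))).toSubring.subtype
      (fun y => y.2))
    (LevelNB.p1 (W0 A) (resW0 A) M' q
      (integralClosure ↥((BaseFn.Data.ofJ (W0 A) (resW0 A) M').AX)
        ↥(laurentBaseChange ↥(K0 A) (modularFunctionFieldFull M'))).toSubring.subtype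
      (fun y => y.2))
    (LevelNB.hα₀ (W0 A) (resW0 A) M' q _ (fun y => y.2) hq π₀ hπ₀)
    (LevelNB.hα₁ (W0 A) (resW0 A) M' q _ (fun y => y.2) hq
      (Pi1Fin.pi1 ↥(K0 A) M' q (W0 A) (resW0 A) hq) (fun _ => rfl))
    (LevelNB.hβ₁ (W0 A) (resW0 A) M' q _ (fun y => y.2) hq
      (Pi1Fin.pi1 ↥(K0 A) M' q (W0 A) (resW0 A) hq) (fun _ => rfl))
    (LevelNB.hβ₂ (W0 A) (resW0 A) M' q _ (fun y => y.2) hq π₂ hπ₂)
    (p ^ n) (pow_ne_zero n hp.ne_zero)

end Close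

end Fermat.Agent.CAR.Core.HptRK0
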