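import Mathlib
import Fermat.Agent.CAR.Final
import Fermat.Agent.CAR.Core.CoreOfFin
import Fermat.Agent.CAR.Inst.NodeFinK0C
import Fermat.Agent.CAR.Inst.FinShadow

/-!
# CAR (closing term): the core statement `Final.Core 12 11`

Every input is a theorem:

* `Core.CoreOfFin.core_of_hptR` : the core statement from the point packages of the finite
  chart `chart W0 (J_0 J_2)` (the cusp half is `Inst.CuspK0.hptR'_K0`);
* `Inst.NodeFinK0C.hptR_K0_of_contract` : these point packages from one `Contract` record;
* `Inst.FinSh.exists_contract_fin` : the record.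

The bridges between the objects of the record (`FinSh.red3`, `FinSh.redp`, `FinSh.pi0`,
`FinSh.pi2`, `FinSh.xJ`) and the literals of the consumer hold by `rfl`.
-/

set_option autoImplicit false
set_option linter.style.haveILetI false

namespace Fermat.Agent.CAR.Core.CoreClose71

open Fermat.Agent.CAR.Inst Fermat.Agent.CAR.V3 Fermat.Agent.CAR.K0

set_option maxHeartbeats 4000000 in
set_option synthInstance.maxHeartbeats 400000 in
/-- **The core statement of S36** (`Final.Core 12 11`): `NewInertiaK0At (M' q) q p` over the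
inertia field of every place above `q`, with an auxiliary prime `r ≡ 11 mod 12` in `M'`. -/
theorem core_12_11 : Fermat.Agent.CAR.Final.Core 12 11 :=
  Fermat.Agent.CAR.Core.CoreOfFin.core_of_hptR
    (fun {q} hq A hA {ζ} hζ M' p _ _ hqM hp hqp hr h2 h3 _ _ _ _ {W} hW {w} hw => by
      haveI := Fermat.Agent.Lib.FF.CharP.isAlgClosed_residueField A
      haveI := FinSh.isFractionRing_R hq A hA M'
      obtain ⟨uB, u₁B, v₁B, hB, H⟩ := FinSh.exists_contract_fin hq A hA hζ M' hqM hw h2 h3
      exact NodeFinK0C.hptR_K0_of_contract hq A hA hζ M' hqM p hp hqp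
        (hr.imp fun r h => ⟨h.1, h.2.1, h.2.2.1⟩) h2 h3 hW hw
        (Count.redMid_mem_fullC hq A hA hζ M' hqM)
        (FinSh.redp A M' (FinSh.hMk hq A hA M' hqM))
        (fun _ => rfl) (fun _ => rfl) (fun _ => rfl) (fun _ => rfl) (fun _ => rfl)
        (fun _ => rfl) rfl H)

end Fermat.Agent.CAR.Core.CoreClose71
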