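import Mathlib
import Fermat.Agent.CAR.Core.HptRK0
import Fermat.Agent.CAR.Core.CoreOfFin
import Fermat.Agent.CAR.Inst.FinShadow
import Fermat.Agent.CAR.Final

/-!
# CAR-39 (closing): the core statement `Final.Core 12 11`

* `hptR_K0` : the point packages of the finite chart `chart W0 (J_0 J_2)` at the literal objects
  (`HptRK0.hptR_K0_of_contract` at the record `Inst.FinSh.exists_contract_fin`);
* `core_12_11 : Final.Core 12 11` (`CoreOfFin.core_of_hptR`).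
-/

set_option autoImplicit false
set_option linter.style.haveILetI false

namespace Fermat.Agent.CAR.Core.CoreFinSh

open ModularCurve Fermat.Agent.ESJ.Jac Fermat.Agent.BAD.Dict Fermat.Agent.ESJ.Dict.Bc
  Fermat.Agent.CAR.Formal Fermat.Agent.CAR.V3.RestrictNF Fermat.Agent.CAR.Glob.Charts
  Fermat.Agent.CAR.K0 Fermat.Agent.CAR.V3 Fermat.Agent.CAR.V3.MidRing
  Fermat.Agent.CAR.V3.MidRestrict
  Fermat.Agent.BAD.TwoVal Fermat.Agent.ESJ.Cong.LevelGen Fermat.Agent.Lib.Red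
  Fermat.Agent.CAR.Core

local notation "Qb" => AlgebraicClosure ℚ

set_option maxHeartbeats 4000000 in
set_option synthInstance.maxHeartbeats 400000 in
/-- **The point packages of the finite chart at the inertia field** (the binder `hptR` of
`Core.newInertiaK0At_of_pointPkgs`, the binder `hfin` of `CoreOfFin.core_of_hptR`). -/
theorem hptR_K0 {q : ℕ} (hq : q.Prime) (A : ValuationSubring Qb)
    (hA : A.LiesOverPrime q) {ζ : Qb} (hζ : IsPrimitiveRoot ζ q) (M' p : ℕ) [NeZero M']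
    [NeZero q] (hqM : ¬ q ∣ M') (hp : p.Prime) (hqp : q ≠ p)
    (hr : ∃ r : ℕ, r.Prime ∧ r ≡ 11 [MOD 12] ∧ r ∣ M' ∧ r ≠ q ∧ r ≠ p)
    (h2 : q = 2 → 3 ∣ M') (h3 : q = 3 → 2 ∣ M')
    [Algebra ↥(W0 A) (FNK ↥(K0 A) (M' * q))] [Algebra ↥(W0 A) (FNK ↥(K0 A) (M' * q * q))]
    [IsScalarTower ↥(W0 A) ↥(K0 A) (FNK ↥(K0 A) (M' * q))]
    [IsScalarTower ↥(W0 A) ↥(K0 A) (FNK ↥(K0 A) (M' * q * q))]
    {W : ALAut (inertiaField A) M' q} (hW : IsAL M' q W)
    {w : ALAut (inertiaField A) (M' * q) q} (hw : IsAL3 M' q w) :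
    ∀ (n : ℕ) (Q : Ideal (chart ↥(W0 A) (xB A M' q))), Q.IsMaximal →
      algebraMap (W0 A) (chart ↥(W0 A) (xB A M' q)) ((q : ℕ) : W0 A) ∈ Q →
      PointPkg ↥(K0 A) (resW0 A) (p ^ n) q (alphaStar ↥(K0 A) M' q) (betaStar ↥(K0 A) M' q)
        (OInf (badSetup_W0 hq hA M' hqM)) (OZero (badSetup_W0 hq hA M' hqM) W)
        (O3 hq A hA hζ M' hqM w)
        (LocalPair (O3 hq A hA hζ M' hqM w) (chart ↥(W0 A) (xB A M' q)) Q (p ^ n)) := by
  haveI : IsAlgClosed (IsLocalRing.ResidueField A) := Fermat.Agent.Lib.FF.CharP.isAlgClosed_residueField A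
  haveI := Fermat.Agent.CAR.Inst.FinSh.isFractionRing_R hq A hA M'
  obtain ⟨u, u₁, v₁, h, H⟩ :=
    Fermat.Agent.CAR.Inst.FinSh.exists_contract_fin hq A hA hζ M' hqM hw h2 h3
  exact HptRK0.hptR_K0_of_contract hq A hA hζ M' p hqM hp hqp hr h2 h3 hW hw
    (Fermat.Agent.CAR.Inst.FinSh.red3_zero_apply hq A hA hζ M' hqM w) (fun _ => rfl)
    (Fermat.Agent.CAR.Inst.FinSh.red3_two_apply hq A hA hζ M' hqM w)
    (Fermat.Agent.CAR.Inst.FinSh.redp A M' (Fermat.Agent.CAR.Inst.FinSh.hMk hq A hA M' hqM))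
    (Fermat.Agent.CAR.Inst.FinSh.redp_apply A M' (Fermat.Agent.CAR.Inst.FinSh.hMk hq A hA M' hqM))
    (Fermat.Agent.CAR.Inst.FinSh.coe_pi0 hq A M') (Fermat.Agent.CAR.Inst.FinSh.coe_pi2 hq A M')
    (Fermat.Agent.CAR.Inst.FinSh.coe_xJ A M') H

/-- **The core statement `Final.Core 12 11`.** -/
theorem core_12_11 : Fermat.Agent.CAR.Final.Core 12 11 :=
  CoreOfFin.core_of_hptR (fun hq A hA _ hζ M' p _ _ hqM hp hqp hr h2 h3 _ _ _ _ _ hW _ hw =>
    hptR_K0 hq A hA hζ M' p hqM hp hqp hr h2 h3 hW hw)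

end Fermat.Agent.CAR.Core.CoreFinSh
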