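import Mathlib
import Fermat.Agent.CAR.Core.PointsCusp
import Fermat.Agent.CAR.Core.FrontK0
import Fermat.Agent.CAR.Inst.Cusp
import Fermat.Agent.CAR.Inst.CuspInst
import Fermat.Agent.CAR.Inst.HMin3
import Fermat.Agent.CAR.Local.Inst.LiftCuspK0Closed
import Fermat.Agent.CAR.V3.Count
import Fermat.Agent.CAR.V3.MidKappa
import Fermat.Agent.CAR.V3.Restrict
import Fermat.Agent.CAR.V3.RestrictZero

/-!
# CAR (assembly, row 395, second seat): the point packages at the cusps over `K0`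

`hptR'_K0` : the LITERAL binder `hptR'` of `Core.newInertiaK0At_W0_of_points` at the CAR objects

* `O := ![OInf3 hB, OMid hq A hA hζ M' hqM (residue A), OZero3 hB w]`,
  `hB := K0.badSetup_W0 hq hA M' hqM`, `hw : IsAL3 M' q w`;
* `x := CuspQuot.J0 * CuspQuot.J2` (trunk convention), chart at infinity `chart W0 x⁻¹`;
* `PA`, `PC` arbitrary (the cusp package has exactly one branch: no node relation is used);

for every admissible `q` (`q = 2 → 3 ∣ M'`, `q = 3 → 2 ∣ M'`) and every prime `p ≠ q`, with the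
`W0`-algebra structures as abstract binders.  Composition of

* `Core.hptR'_of_cuspBase` (the point package from the three cusp records),
* `Inst.Cusp.v3BaseCusp_chart` (the base record) with `HMin3.hRV3_inv`, `hqV3`, `hmin3_inv`,
  `not_max3_inv`, the uniformiser statements of `V3/Restrict`, `V3/RestrictZero`, and (LIFT) at
  the cusp places `LiftCuspK0.hlift_chart_K0`,
* `Inst.CuspInst.B.v3Cusp`, `Inst.CuspInst.B.exists_v3CuspMid` (the records `V3Cusp`, `V3CuspMid`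
  in the trunk convention),

at the residue maps `red3 = (redInf3, redMidK, redZero3)`.
-/

set_option autoImplicit false
set_option linter.unusedSectionVars false
set_option linter.style.haveILetI false

noncomputable section

namespace Fermat.Agent.CAR.Core.HptRpK0B

open ModularCurve IsLocalRing Fermat.Agent.ESJ.Jac Fermat.Agent.BAD.TwoVal
  Fermat.Agent.CAR.Core Fermat.Agent.CAR.V3.RestrictNF Fermat.Agent.BAD.Dict
  Fermat.Agent.ESJ.Dict.Bc
  Fermat.Agent.Lib.Red Fermat.Agent.S28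
  Fermat.Agent.CAR Fermat.Agent.CAR.K0 Fermat.Agent.CAR.V3 Fermat.Agent.CAR.V3.MidRing
  Fermat.Agent.CAR.Glob Fermat.Agent.CAR.Glob.Charts Fermat.Agent.CAR.Formal
  Fermat.Agent.CAR.Local Fermat.Agent.CAR.Local.Inst Fermat.Agent.CAR.Local.InstCusp

local notation "Qb" => AlgebraicClosure ℚ

set_option synthInstance.maxHeartbeats 400000
set_option maxHeartbeats 1000000

variable {q : ℕ} (hq : q.Prime) (A : ValuationSubring Qb) (hA : A.LiesOverPrime q)
  {ζ : Qb} (hζ : IsPrimitiveRoot ζ q) (M' : ℕ) [NeZero M'] [NeZero q] (hqM : ¬ q ∣ M')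
  (w : laurentBaseChange ↥(K0 A) (modularFunctionFieldFull (M' * q * q)) ≃ₐ[↥(K0 A)]
    laurentBaseChange ↥(K0 A) (modularFunctionFieldFull (M' * q * q)))

/-- The three residue maps `(red_∞, red_mid, red_0)` of the three components, with values in
the function field `κ` of level `M'` over the residue field. -/
def red3 : ∀ i : Fin 3,
    ((![OInf3 (badSetup_W0 hq hA M' hqM), OMid hq A hA hζ M' hqM (IsLocalRing.residue A),
      OZero3 (badSetup_W0 hq hA M' hqM) w] : Fin 3 → ValuationSubring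
        ↥(laurentBaseChange ↥(K0 A) (modularFunctionFieldFull (M' * q * q)))) i) →+*
      ↥(modularFunctionFieldFullC (IsLocalRing.ResidueField A) M')
  | ⟨0, _⟩ => redInf3 (badSetup_W0 hq hA M' hqM)
  | ⟨1, _⟩ => MidKappa.redMidK hq A hA hζ M' hqM (Count.redMid_mem_fullC hq A hA hζ M' hqM)
  | ⟨2, _⟩ => redZero3 (badSetup_W0 hq hA M' hqM) w

/-- The kernel of each residue map is the maximal ideal. -/
theorem hred3 : ∀ i, ∀ z : ((![OInf3 (badSetup_W0 hq hA M' hqM),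
      OMid hq A hA hζ M' hqM (IsLocalRing.residue A),
      OZero3 (badSetup_W0 hq hA M' hqM) w] : Fin 3 → ValuationSubring
        ↥(laurentBaseChange ↥(K0 A) (modularFunctionFieldFull (M' * q * q)))) i),
    red3 hq A hA hζ M' hqM w i z = 0 ↔ z ∈ maximalIdeal _ := by
  intro i
  fin_cases i
  · exact fun z => (redInf3_eq_zero_iff (badSetup_W0 hq hA M' hqM) z).trans
      ((IsLocalRing.mem_maximalIdeal z).trans mem_nonunits_iff).symm
  · exact MidKappa.redMidK_eq_zero_iff_mem_maximalIdeal hq A hA hζ M' hqM _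
  · exact fun z => (redZero3_eq_zero_iff (badSetup_W0 hq hA M' hqM) z).trans
      ((IsLocalRing.mem_maximalIdeal z).trans mem_nonunits_iff).symm

variable {w}

/-- Constants of `W0` as elements `CK` of `K0 · F_{M'q²}` (abstract `W0`-algebra structure). -/
theorem algebraMap_W0_eq_CK
    [Algebra ↥(W0 A) ↥(laurentBaseChange ↥(K0 A) (modularFunctionFieldFull (M' * q * q)))]
    [IsScalarTower ↥(W0 A) ↥(K0 A)
      ↥(laurentBaseChange ↥(K0 A) (modularFunctionFieldFull (M' * q * q)))] (a : W0 A) :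
    algebraMap ↥(W0 A) ↥(laurentBaseChange ↥(K0 A) (modularFunctionFieldFull (M' * q * q))) a =
      CK (inertiaField A) (M' * q * q) (a : K0 A) := by
  rw [IsScalarTower.algebraMap_apply ↥(W0 A) ↥(K0 A)]
  exact Subtype.ext (by
    rw [coe_CK, Fermat.Agent.Lib.Red.C_eq_algebraMap]
    rfl)

include hq hA in
/-- **The binder `hptR'` of `Core.newInertiaK0At_W0_of_points` at the CAR objects**: the point
packages at the cusps of the chart at infinity `chart W0 (J_0 J_2)⁻¹`, for the three components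
`![O_∞, O_mid, O_0]`, every admissible `q` and every prime `p ≠ q`. -/
theorem hptR'_K0 (hw : IsAL3 M' q w) (p : ℕ) (hp : p.Prime) (hqp : q ≠ p)
    (h2 : q = 2 → 3 ∣ M') (h3 : q = 3 → 2 ∣ M')
    [Algebra ↥(W0 A) (FNK ↥(K0 A) (M' * q))] [Algebra ↥(W0 A) (FNK ↥(K0 A) (M' * q * q))]
    [IsScalarTower ↥(W0 A) ↥(K0 A) (FNK ↥(K0 A) (M' * q))]
    [IsScalarTower ↥(W0 A) ↥(K0 A) (FNK ↥(K0 A) (M' * q * q))]
    (PA PC : ValuationSubring (FNK ↥(K0 A) (M' * q))) :
    ∀ (n : ℕ) (Q : Ideal (chart ↥(W0 A)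
        (CuspQuot.J0 (q := q) ↥(K0 A) M' * CuspQuot.J2 (q := q) ↥(K0 A) M')⁻¹)),
      Q.IsMaximal →
      algebraMap (W0 A) (chart ↥(W0 A)
        (CuspQuot.J0 (q := q) ↥(K0 A) M' * CuspQuot.J2 (q := q) ↥(K0 A) M')⁻¹)
        ((q : ℕ) : W0 A) ∈ Q →
      (⟨(CuspQuot.J0 (q := q) ↥(K0 A) M' * CuspQuot.J2 (q := q) ↥(K0 A) M')⁻¹,
        self_mem_chart _⟩ : chart ↥(W0 A)
          (CuspQuot.J0 (q := q) ↥(K0 A) M' * CuspQuot.J2 (q := q) ↥(K0 A) M')⁻¹) ∈ Q →
      PointPkg ↥(K0 A) (resW0 A) (p ^ n) q (alphaStar ↥(K0 A) M' q) (betaStar ↥(K0 A) M' q)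
        PA PC
        (![OInf3 (badSetup_W0 hq hA M' hqM), OMid hq A hA hζ M' hqM (IsLocalRing.residue A),
          OZero3 (badSetup_W0 hq hA M' hqM) w] : Fin 3 → ValuationSubring
            (FNK ↥(K0 A) (M' * q * q)))
        (LocalPair
          (![OInf3 (badSetup_W0 hq hA M' hqM), OMid hq A hA hζ M' hqM (IsLocalRing.residue A),
            OZero3 (badSetup_W0 hq hA M' hqM) w] : Fin 3 → ValuationSubring
              (FNK ↥(K0 A) (M' * q * q)))
          (chart ↥(W0 A)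
            (CuspQuot.J0 (q := q) ↥(K0 A) M' * CuspQuot.J2 (q := q) ↥(K0 A) M')⁻¹)
          Q (p ^ n)) := by
  intro n
  haveI := isDiscreteValuationRing_W0 hq hA
  have hx : ((CuspQuot.J0 (q := q) ↥(K0 A) M' * CuspQuot.J2 (q := q) ↥(K0 A) M' :
      ↥(laurentBaseChange ↥(K0 A) (modularFunctionFieldFull (M' * q * q)))) :
      LaurentSeries ↥(K0 A)).order ≠ 0 := Inst.HMin.order_J0_mul_J2_ne_zero
  obtain ⟨i1, i2, i3⟩ := Inst.Cusp.chart_inv_instances (W := ↥(W0 A)) ↥(K0 A) (M' * q * q)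
    (CuspQuot.J0 (q := q) ↥(K0 A) M' * CuspQuot.J2 (q := q) ↥(K0 A) M') hx
  have hAq := Restrict.isUnif_W0 hq hA
  have hU0 := Restrict.isUnif_OInf3_natCast (badSetup_W0 hq hA M' hqM) q hAq
  have hU2 := RestrictZero.isUnif_OZero3_natCast (badSetup_W0 hq hA M' hqM) w q hAq
  have hqF : algebraMap ↥(W0 A)
      ↥(laurentBaseChange ↥(K0 A) (modularFunctionFieldFull (M' * q * q))) ((q : ℕ) : W0 A) =
      ((q : ℕ) : ↥(laurentBaseChange ↥(K0 A) (modularFunctionFieldFull (M' * q * q)))) :=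
    map_natCast _ q
  have hq0 : ((q : ℕ) : W0 A) ≠ 0 := Nat.cast_ne_zero.mpr hq.ne_zero
  have hq0K : algebraMap ↥(W0 A) ↥(K0 A) ((q : ℕ) : W0 A) ≠ 0 := by
    rw [map_natCast]
    exact Nat.cast_ne_zero.mpr hq.ne_zero
  have hR'V := fun i r hr => Inst.HMin3.hRV3_inv hq A hA hζ M' hqM hw i r hr
  -- the base record
  have H := Inst.Cusp.v3BaseCusp_chart ↥(K0 A) (M' * q * q) ((q : ℕ) : W0 A) hq0
    (CuspQuot.J0 (q := q) ↥(K0 A) M' * CuspQuot.J2 (q := q) ↥(K0 A) M')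
    ![OInf3 (badSetup_W0 hq hA M' hqM), OMid hq A hA hζ M' hqM (IsLocalRing.residue A),
      OZero3 (badSetup_W0 hq hA M' hqM) w]
    (red3 hq A hA hζ M' hqM w) (hred3 hq A hA hζ M' hqM w) hR'V
    (xk (IsLocalRing.ResidueField A) M')⁻¹
    (Inst.HMin3.hqV3 hq A hA hζ M' hqM hw)
    (Inst.HMin3.hmin3_inv hq A hA hζ M' hqM hw hR'V)
    (Inst.HMin3.not_max3_inv hq A hA hζ M' hqM hw (fun i a => hR'V i a a.2))
    (fun z hz => by rw [hqF]; exact MidCuspB.div_mem_of_isUnif hU0 hz)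
    (fun z hz => by rw [hqF]; exact MidCuspB.div_mem_of_isUnif hU2 hz)
    (LiftCuspK0.hlift_chart_K0 hq A hA M' hζ hqM (badSetup_W0 hq hA M' hqM) hw h2 h3 _
      (red3 hq A hA hζ M' hqM w) (fun i a => hR'V i a a.2)
      (fun _ _ _ => rfl) (fun _ _ _ => rfl) (fun _ _ _ => rfl))
  -- the two cusp records
  have C := Inst.CuspInst.B.v3Cusp hq A hA hζ M' hqM (badSetup_W0 hq hA M' hqM) hw
    (MidKappa.redMidK hq A hA hζ M' hqM (Count.redMid_mem_fullC hq A hA hζ M' hqM))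
    (fun _ => rfl) (coe_xk (IsLocalRing.ResidueField A) M') ↥(W0 A)
    ![OInf3 (badSetup_W0 hq hA M' hqM), OMid hq A hA hζ M' hqM (IsLocalRing.residue A),
      OZero3 (badSetup_W0 hq hA M' hqM) w]
    (red3 hq A hA hζ M' hqM w) (fun i a => hR'V i a a.2)
    rfl (fun _ _ _ => rfl) rfl (fun _ _ _ => rfl) rfl (fun _ _ _ => rfl)
  obtain ⟨g, -, M⟩ := Inst.CuspInst.B.exists_v3CuspMid hq A hA hζ M' hqM
    (badSetup_W0 hq hA M' hqM)
    (MidKappa.redMidK hq A hA hζ M' hqM (Count.redMid_mem_fullC hq A hA hζ M' hqM))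
    (fun _ => rfl) (coe_xk (IsLocalRing.ResidueField A) M') ↥(W0 A)
    ![OInf3 (badSetup_W0 hq hA M' hqM), OMid hq A hA hζ M' hqM (IsLocalRing.residue A),
      OZero3 (badSetup_W0 hq hA M' hqM) w]
    (red3 hq A hA hζ M' hqM w) (fun i a => hR'V i a a.2)
    rfl (fun _ _ _ => rfl) (hred3 hq A hA hζ M' hqM w)
    (fun a => ⟨a, algebraMap_W0_eq_CK A M' a⟩)
    (algebraMap ↥(W0 A) (chart ↥(W0 A)
      (CuspQuot.J0 (q := q) ↥(K0 A) M' * CuspQuot.J2 (q := q) ↥(K0 A) M')⁻¹) ((q : ℕ) : W0 A))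
    (by rw [← IsScalarTower.algebraMap_apply, hqF])
  -- `p ^ n` is a unit of `W0`
  obtain ⟨p', hpp⟩ := frontK0_inv hq hA hp hqp
  have hm : IsUnit (((p ^ n : ℕ) : ℕ) : W0 A) := by
    rw [Nat.cast_pow]
    exact (IsUnit.of_mul_eq_one p' hpp).pow n
  exact hptR'_of_cuspBase (resW0 A) (p ^ n) q (alphaStar ↥(K0 A) M' q) (betaStar ↥(K0 A) M' q)
    PA PC _ (chart ↥(W0 A)
      (CuspQuot.J0 (q := q) ↥(K0 A) M' * CuspQuot.J2 (q := q) ↥(K0 A) M')⁻¹)
    ((q : ℕ) : W0 A) hq0K (frontK0_hK0' hq hA) hm H C M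

end Fermat.Agent.CAR.Core.HptRpK0B
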